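/-
S13, package [Tp]: LOCAL ANALYSIS AT `p` for the Frey curve.

For a place `A` of `ℚ̄` above `p`, and a Galois-stable line `L` of `E[p]`, the inertia group
`I_A` acts trivially on `L` or trivially on `E[p] / L`.

The only input from the torsion theory is `DP P`: an integer polynomial with leading coefficient
`± p` vanishing at the abscissae of the nonzero `p`-torsion points (the `p`-th division
polynomial).  No Newton polygon, no ordinary/supersingular distinction, no formal group.
-/
import Mathlib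
import Fermat.Prelude.Def_FLTPrelim_Ramification
import Fermat.Agent.S05.Glue
import Fermat.Agent.S05.FreyInst
import Fermat.Agent.S13.LocalP.RootProd
import Fermat.Agent.S13.LocalP.KummerLocal

set_option autoImplicit false

namespace Fermat.Agent.S13.LocalP

open WeierstrassCurve WeierstrassCurve.Affine WeierstrassCurve.Affine.Point
open Fermat.Agent.S05

/-- The abscissa of a point (junk value `0` at infinity). -/
def xc {K : Type*} [Field K] (W : Affine K) : W.Point → K
  | .zero => 0
  | .some X _ _ => X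

/-- The division-polynomial input: an integer polynomial with leading coefficient `± p`
vanishing at the abscissae of all nonzero `p`-torsion points of the Frey curve. -/
def DP (P : FreyPackage) : Prop :=
  ∃ ψ : Polynomial ℤ, (ψ.leadingCoeff = (P.p : ℤ) ∨ ψ.leadingCoeff = -(P.p : ℤ)) ∧
    ∀ T : (P.freyCurve⁄(AlgebraicClosure ℚ)).Point, T ≠ 0 → P.p • T = 0 →
      Polynomial.aeval (xc _ T) ψ = 0

section general

variable {K : Type*} [Field K] [Algebra ℚ K] [DecidableEq K]

theorem xc_smul (P : FreyPackage) (σ : K ≃ₐ[ℚ] K) (T : (P.freyCurve⁄K).Point) :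
    xc _ (σ • T) = σ (xc _ T) := by
  rcases T with _ | ⟨x, y, h⟩
  · have h0 : σ • (0 : (P.freyCurve⁄K).Point) = 0 :=
      smul_zero (A := (P.freyCurve⁄K).Point) σ
    show xc _ (σ • (0 : (P.freyCurve⁄K).Point)) = σ (0 : K)
    rw [h0, _root_.map_zero]; rfl
  · rw [algEquiv_smul_def, map_some]
    rfl

theorem kummer_x_eq (P : FreyPackage) (h2 : (2 : K) ≠ 0) (e : ℚ)
    (he : e * (e - (P.a : ℚ) ^ P.p) * (e + (P.b : ℚ) ^ P.p) = 0)
    {T : (P.freyCurve⁄K).Point} (hT : T ≠ 0) :
    (FreyInst.kummer (K := K) P h2 e he).x T = 4 * xc _ T - algebraMap ℚ K e := by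
  rcases T with _ | ⟨x, y, h⟩
  · exact absurd rfl hT
  · rfl

omit [DecidableEq K] in
/-- A rational number of `q`-adic absolute value `> 1` has absolute value `≥ 1` after
multiplication by `q`. -/
theorem one_le_val_mul_of_one_lt (A : ValuationSubring K) {q : ℕ} (hq : q.Prime)
    (hA : A.LiesOverPrime q) (r : ℚ) (h : 1 < A.valuation (algebraMap ℚ K r)) :
    1 ≤ A.valuation ((q : K) * algebraMap ℚ K r) := by
  have hinj : Function.Injective (algebraMap ℚ K) := (algebraMap ℚ K).injective
  have hr : algebraMap ℚ K r = (r.num : K) / (r.den : K) := by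
    conv_lhs => rw [← Rat.num_div_den r]
    rw [map_div₀, map_intCast, map_natCast]
  have hden0 : (r.den : K) ≠ 0 := by
    have : (r.den : K) = algebraMap ℚ K (r.den : ℚ) := by rw [map_natCast]
    rw [this]
    exact (map_ne_zero_iff _ hinj).mpr (by exact_mod_cast r.den_ne_zero)
  have hvden0 : A.valuation (r.den : K) ≠ 0 := (A.valuation.ne_zero_iff).mpr hden0
  have hnum1 : A.valuation (r.num : K) ≤ 1 := val_intCast_le_one A r.num
  have hden1 : A.valuation (r.den : K) ≤ 1 := by
    have := val_intCast_le_one A (r.den : ℤ)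
    rwa [Int.cast_natCast] at this
  -- the denominator is divisible by `q`
  have hdenlt : A.valuation (r.den : K) < 1 := by
    rcases lt_or_eq_of_le hden1 with h1 | h1
    · exact h1
    · exfalso
      rw [hr, map_div₀, h1, div_one] at h
      exact absurd hnum1 (not_le.mpr h)
  have hqden : (q : ℤ) ∣ (r.den : ℤ) := by
    have := (Glue.val_intCast_lt_one_iff A hq hA (r.den : ℤ)).mp (by simpa using hdenlt)
    exact this
  have hqnum : ¬ (q : ℤ) ∣ r.num := by
    intro hn
    have h1 : q ∣ r.num.natAbs := Int.natCast_dvd.mp hn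
    have h2 : q ∣ r.den := Int.natCast_dvd_natCast.mp hqden
    have h3 : q ∣ Nat.gcd r.num.natAbs r.den := Nat.dvd_gcd h1 h2
    rw [r.reduced] at h3
    exact hq.one_lt.ne' (Nat.dvd_one.mp h3)
  have hnumv : A.valuation (r.num : K) = 1 := (val_intCast_eq_one_iff A hq hA r.num).mpr hqnum
  obtain ⟨d, hd⟩ := Int.natCast_dvd_natCast.mp hqden
  have hd0 : (d : K) ≠ 0 := by
    rintro h0
    apply hden0
    rw [hd, Nat.cast_mul, h0, mul_zero]
  have hq0 : (q : K) ≠ 0 := by
    rintro h0
    apply hden0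
    rw [hd, Nat.cast_mul, h0, zero_mul]
  have hdv : A.valuation (d : K) ≤ 1 := by
    have := val_intCast_le_one A (d : ℤ)
    rwa [Int.cast_natCast] at this
  have hdv0 : A.valuation (d : K) ≠ 0 := (A.valuation.ne_zero_iff).mpr hd0
  have e : (q : K) * algebraMap ℚ K r = (r.num : K) / (d : K) := by
    rw [hr, hd, Nat.cast_mul]
    field_simp
  rw [e, map_div₀, hnumv, one_div]
  exact (one_le_inv₀ (zero_lt_iff.mpr hdv0)).mpr hdv

omit [Algebra ℚ K] [DecidableEq K] in
/-- A nonempty product of elements of absolute value `> 1` has absolute value `> 1`. -/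
theorem one_lt_val_prod {Γ₀ : Type*} [LinearOrderedCommGroupWithZero Γ₀] (v : Valuation K Γ₀)
    (s : Finset K) (hs : s.Nonempty) (h : ∀ ρ ∈ s, 1 < v ρ) : 1 < v (∏ ρ ∈ s, ρ) := by
  classical
  induction hs using Finset.Nonempty.cons_induction with
  | singleton a => simpa using h a (Finset.mem_singleton_self a)
  | cons a s ha hs ih =>
    rw [Finset.prod_cons, map_mul]
    have h1 : 1 < v a := h a (Finset.mem_cons_self a s)
    have h2 : 1 < v (∏ ρ ∈ s, ρ) := ih (fun ρ hρ => h ρ (Finset.mem_cons.mpr (Or.inr hρ)))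
    have : (1 : Γ₀) * 1 < v a * v (∏ ρ ∈ s, ρ) := mul_lt_mul'' h1 h2 zero_le_one zero_le_one
    rwa [one_mul] at this

end general

local notation "Kbar" => AlgebraicClosure ℚ

theorem isGalois_ratBar : IsGalois ℚ (AlgebraicClosure ℚ) := by
  have h : (DivisionRing.toRatAlgebra : Algebra ℚ (AlgebraicClosure ℚ)) =
      AlgebraicClosure.instAlgebra ℚ := Subsingleton.elim _ _
  rw [h]
  infer_instance

theorem isAlgebraic_ratBar : Algebra.IsAlgebraic ℚ (AlgebraicClosure ℚ) := by
  have h : (DivisionRing.toRatAlgebra : Algebra ℚ (AlgebraicClosure ℚ)) =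
      AlgebraicClosure.instAlgebra ℚ := Subsingleton.elim _ _
  rw [h]
  infer_instance

/-- **LOCAL AT `p`.** For a place `A` above `p` and a Galois-stable line `L` in `E[p]` (`E` the
Frey curve), the inertia group at `A` acts trivially on `L` or trivially on `E[p] / L`. -/
theorem inertia_dichotomy (P : FreyPackage) (A : ValuationSubring Kbar)
    (hA : A.LiesOverPrime P.p) (hψ : DP P)
    (L : Submodule (ZMod P.p) (Submodule.torsionBy ℤ (P.freyCurve⁄Kbar).Point P.p))
    (hL : IsGaloisStable ℚ L) (hcard : Nat.card L = P.p) :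
    (∀ σ ∈ A.inertiaSubgroupIn ℚ, ∀ x ∈ L, σ • x = x) ∨
    (∀ σ ∈ A.inertiaSubgroupIn ℚ,
      ∀ x : Submodule.torsionBy ℤ (P.freyCurve⁄Kbar).Point P.p, σ • x - x ∈ L) := by
  classical
  have hgal := isGalois_ratBar
  have halg := isAlgebraic_ratBar
  have hp2 : P.p ≠ 2 := by have := P.hp5; omega
  obtain ⟨e, w, he, hβ, hγ, hdisc, hγ0, hcase⟩ := frey_case P P.pp hp2 A hA
  have h2K : (2 : Kbar) ≠ 0 := two_ne_zero
  have hv2 : A.valuation (2 : Kbar) = 1 := by
    have := (val_intCast_eq_one_iff A P.pp hA 2).mpr (by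
      intro h
      have h1 : (P.p : ℤ) ∣ ((2 : ℕ) : ℤ) := by exact_mod_cast h
      rw [Int.natCast_dvd_natCast] at h1
      exact hp2 ((Nat.prime_dvd_prime_iff_eq P.pp Nat.prime_two).mp h1))
    simpa using this
  have h4 : A.valuation (4 : Kbar) = 1 := by
    have : (4 : Kbar) = 2 * 2 := by norm_num
    rw [this, map_mul, hv2, one_mul]
  have hγ0' : (FreyInst.kummer (K := Kbar) P h2K e he).γ ≠ 0 := by
    rw [FreyInst.kummer_γ]; exact (map_ne_zero _).mpr hγ0
  have hβ' : A.valuation (FreyInst.kummer (K := Kbar) P h2K e he).β ≤ 1 := by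
    rw [FreyInst.kummer_β]; exact hβ
  have hγ' : A.valuation (FreyInst.kummer (K := Kbar) P h2K e he).γ ≤ 1 := by
    rw [FreyInst.kummer_γ]; exact hγ
  -- inertia moves torsion points inside their class modulo the kernel of reduction
  have key : ∀ σ ∈ A.inertiaSubgroupIn ℚ, ∀ T : (P.freyCurve⁄Kbar).Point, P.p • T = 0 →
      InE1 (FreyInst.kummer (K := Kbar) P h2K e he) A.valuation (T - σ • T) := by
    intro σ hσ T hT
    exact diff_mem_E1 (FreyInst.kummer (K := Kbar) P h2K e he) A.valuation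
      (FreyKummer.galAddHom σ) (σ : Kbar →+* Kbar)
      (fun Q _ => FreyInst.kummer_x_smul P h2K e he σ Q)
      (fun Q _ => FreyInst.kummer_y_smul P h2K e he σ Q)
      (fun Q hQ => (PointAlg.smul_ne_zero_iff σ Q).mpr hQ)
      (fun a ha => inertia_sub_lt A σ hσ a ha)
      (fun a => inertia_val_eq A σ hσ a)
      hv2 P.p P.pp hp2 hβ' hγ'
      (by rw [FreyInst.kummer_β, FreyInst.kummer_γ]; simpa using hdisc)
      hγ0'
      (by
        rw [FreyInst.kummer_β, FreyInst.kummer_γ]
        rcases hcase with h | ⟨h1, h2, h3⟩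
        · exact Or.inl h
        · exact Or.inr ⟨h1, h2, algebraMap ℚ _ w, σ.commutes w, h3⟩)
      T hT
  have hDx : ∀ T : (P.freyCurve⁄Kbar).Point, T ≠ 0 →
      (FreyInst.kummer (K := Kbar) P h2K e he).x T = 4 * xc _ T - algebraMap ℚ Kbar e :=
    fun T hT => kummer_x_eq P h2K e he hT
  -- the shift `e` is an integer
  have hev : A.valuation (algebraMap ℚ Kbar e) ≤ 1 := by
    rcases mul_eq_zero.mp he with h | h
    · rcases mul_eq_zero.mp h with h | h
      · rw [h, _root_.map_zero, _root_.map_zero]; exact zero_le_one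
      · have h' : e = ((P.a ^ P.p : ℤ) : ℚ) := by
          rw [sub_eq_zero] at h; rw [h]; push_cast; ring
        rw [Glue.val_algebraMap_int A e _ h']; exact val_intCast_le_one A _
    · have h' : e = ((-(P.b ^ P.p) : ℤ) : ℚ) := by
        have : e = -(P.b : ℚ) ^ P.p := by linarith
        rw [this]; push_cast; ring
      rw [Glue.val_algebraMap_int A e _ h']; exact val_intCast_le_one A _
  generalize FreyInst.kummer (K := Kbar) P h2K e he = D at key hDx hβ' hγ' hγ0'
  -- points of `E₁` have non-integral abscissa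
  have hE1x : ∀ T : (P.freyCurve⁄Kbar).Point, T ≠ 0 → InE1 D A.valuation T →
      1 < A.valuation (xc _ T) := by
    intro T hT0 hT
    have h1 := hT.resolve_left hT0
    rw [hDx T hT0] at h1
    by_contra hcon
    rw [not_lt] at hcon
    have : A.valuation (4 * xc _ T - algebraMap ℚ Kbar e) ≤ 1 :=
      A.valuation.map_sub_le (by rw [map_mul, h4, one_mul]; exact hcon) hev
    exact absurd h1 (not_lt.mpr this)
  -- the abscissa determines a point up to sign
  have hxinj : ∀ T T' : (P.freyCurve⁄Kbar).Point, T ≠ 0 → T' ≠ 0 → xc _ T = xc _ T' →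
      T = T' ∨ T = -T' := by
    intro T T' hT hT' h
    exact D.eq_or_eq_neg_of_x_eq hT hT' (by rw [hDx T hT, hDx T' hT', h])
  -- torsion
  have htors : ∀ x : Submodule.torsionBy ℤ (P.freyCurve⁄Kbar).Point P.p,
      P.p • (x : (P.freyCurve⁄Kbar).Point) = 0 := by
    intro x
    have hx : (P.p : ℤ) • x.1 = 0 := (Submodule.mem_torsionBy_iff _ _).mp x.2
    rwa [natCast_zsmul] at hx
  -- `σ x - x` lies in `E₁`
  have hdiff : ∀ σ ∈ A.inertiaSubgroupIn ℚ,
      ∀ x : Submodule.torsionBy ℤ (P.freyCurve⁄Kbar).Point P.p,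
        InE1 D A.valuation ((σ • x - x : Submodule.torsionBy ℤ (P.freyCurve⁄Kbar).Point P.p) :
          (P.freyCurve⁄Kbar).Point) := by
    intro σ hσ x
    have h := inE1_neg D A.valuation (key σ hσ (x : (P.freyCurve⁄Kbar).Point) (htors x))
    have e1 : ((σ • x - x : Submodule.torsionBy ℤ (P.freyCurve⁄Kbar).Point P.p) :
        (P.freyCurve⁄Kbar).Point) = -((x : (P.freyCurve⁄Kbar).Point) -
          σ • (x : (P.freyCurve⁄Kbar).Point)) := by
      rw [neg_sub]; rfl
    rw [e1]; exact h
  -- the subgroup of `L` of points in the kernel of reduction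
  let S₀ : AddSubgroup L :=
    { carrier := {x | InE1 D A.valuation (((x : L) :
        Submodule.torsionBy ℤ (P.freyCurve⁄Kbar).Point P.p) : (P.freyCurve⁄Kbar).Point)}
      zero_mem' := Or.inl rfl
      add_mem' := fun {a b} ha hb => inE1_add D A.valuation hβ' hγ' ha hb
      neg_mem' := fun {a} ha => inE1_neg D A.valuation ha }
  have hfin : Finite L := Nat.finite_of_card_ne_zero (by rw [hcard]; exact P.hp0)
  have hdvd : Nat.card S₀ ∣ P.p := by
    have := S₀.card_addSubgroup_dvd_card
    rwa [hcard] at this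
  rcases (Nat.dvd_prime P.pp).mp hdvd with h1 | hp
  · -- `L ∩ E₁ = 0`: inertia acts trivially on `L`
    left
    have hbot : S₀ = ⊥ := AddSubgroup.eq_bot_of_card_eq S₀ h1
    intro σ hσ x hx
    have hy : σ • x - x ∈ L := L.sub_mem (hL σ x hx) hx
    have hyE : (⟨σ • x - x, hy⟩ : L) ∈ S₀ := hdiff σ hσ x
    rw [hbot, AddSubgroup.mem_bot] at hyE
    have h0 : σ • x - x = 0 := congrArg Subtype.val hyE
    exact sub_eq_zero.mp h0
  · -- `L ⊆ E₁`: then `E₁ ∩ E[p] = L`, and inertia acts trivially on `E[p] / L`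
    right
    have htop : S₀ = ⊤ := (AddSubgroup.card_eq_iff_eq_top S₀).mp (hp.trans hcard.symm)
    have hall : ∀ x : Submodule.torsionBy ℤ (P.freyCurve⁄Kbar).Point P.p, x ∈ L →
        InE1 D A.valuation (x : (P.freyCurve⁄Kbar).Point) := by
      intro x hx
      have : (⟨x, hx⟩ : L) ∈ S₀ := htop ▸ AddSubgroup.mem_top _
      exact this
    suffices hmem : ∀ y : Submodule.torsionBy ℤ (P.freyCurve⁄Kbar).Point P.p,
        InE1 D A.valuation (y : (P.freyCurve⁄Kbar).Point) → y ∈ L from
      fun σ hσ x => hmem _ (hdiff σ hσ x)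
    intro y hyE
    by_contra hyL
    have hy0 : y ≠ 0 := fun h => hyL (h ▸ L.zero_mem)
    have hyP0 : (y : (P.freyCurve⁄Kbar).Point) ≠ 0 := fun h => hy0 (Subtype.ext h)
    have hyv : 1 < A.valuation (xc _ (y : (P.freyCurve⁄Kbar).Point)) := hE1x _ hyP0 hyE
    -- the finite set of abscissae of `L \ 0`
    have hLfin : (L : Set (Submodule.torsionBy ℤ (P.freyCurve⁄Kbar).Point P.p)).Finite :=
      Set.toFinite _
    set s : Finset Kbar := (hLfin.toFinset.erase 0).image
      (fun x : Submodule.torsionBy ℤ (P.freyCurve⁄Kbar).Point P.p =>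
        xc _ (x : (P.freyCurve⁄Kbar).Point)) with hs
    have hs_mem : ∀ ρ ∈ s, ∃ x : Submodule.torsionBy ℤ (P.freyCurve⁄Kbar).Point P.p,
        x ∈ L ∧ x ≠ 0 ∧ xc _ (x : (P.freyCurve⁄Kbar).Point) = ρ := by
      intro ρ hρ
      obtain ⟨x, hx, rfl⟩ := Finset.mem_image.mp hρ
      rw [Finset.mem_erase, Set.Finite.mem_toFinset] at hx
      exact ⟨x, hx.2, hx.1, rfl⟩
    have mem_s : ∀ x : Submodule.torsionBy ℤ (P.freyCurve⁄Kbar).Point P.p, x ∈ L → x ≠ 0 →
        xc _ (x : (P.freyCurve⁄Kbar).Point) ∈ s := by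
      intro x hx hx0
      refine Finset.mem_image.mpr ⟨x, ?_, rfl⟩
      rw [Finset.mem_erase, Set.Finite.mem_toFinset]
      exact ⟨hx0, hx⟩
    have hs_v : ∀ ρ ∈ s, 1 < A.valuation ρ := by
      intro ρ hρ
      obtain ⟨x, hxL, hx0, rfl⟩ := hs_mem ρ hρ
      exact hE1x _ (fun h => hx0 (Subtype.ext h)) (hall x hxL)
    have hs_ne : s.Nonempty := by
      have h1 : 1 < Nat.card L := by rw [hcard]; have := P.hp5; omega
      have : Nontrivial L := Finite.one_lt_card_iff_nontrivial.mp h1
      obtain ⟨x, hx⟩ := exists_ne (0 : L)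
      exact ⟨_, mem_s x.1 x.2 (fun h => hx (Subtype.ext h))⟩
    have hnot : xc _ (y : (P.freyCurve⁄Kbar).Point) ∉ s := by
      intro hin
      obtain ⟨x, hxL, hx0, hxy⟩ := hs_mem _ hin
      rcases hxinj _ _ (fun h => hx0 (Subtype.ext h)) hyP0 hxy with h | h
      · exact hyL ((Subtype.ext h : x = y) ▸ hxL)
      · have : y = -x := by
          apply Subtype.ext
          show (y : (P.freyCurve⁄Kbar).Point) = -(x : (P.freyCurve⁄Kbar).Point)
          rw [h, neg_neg]
        exact hyL (this ▸ L.neg_mem hxL)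
    -- the division polynomial
    obtain ⟨ψ, hlc, hroot⟩ := hψ
    have hcast : Function.Injective (Int.castRingHom Kbar) := Int.cast_injective
    have hf : ∀ i, A.valuation ((ψ.map (Int.castRingHom Kbar)).coeff i) ≤ 1 := by
      intro i
      rw [Polynomial.coeff_map]
      exact val_intCast_le_one A _
    have hrootT : ∀ x : Submodule.torsionBy ℤ (P.freyCurve⁄Kbar).Point P.p, x ≠ 0 →
        (ψ.map (Int.castRingHom Kbar)).IsRoot (xc _ (x : (P.freyCurve⁄Kbar).Point)) := by
      intro x hx0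
      rw [Polynomial.IsRoot.def, Polynomial.eval_map, ← algebraMap_int_eq, ← Polynomial.aeval_def]
      exact hroot _ (fun h => hx0 (Subtype.ext h)) (htors x)
    have hroots : ∀ ρ ∈ insert (xc _ (y : (P.freyCurve⁄Kbar).Point)) s,
        (ψ.map (Int.castRingHom Kbar)).IsRoot ρ ∧ 1 < A.valuation ρ := by
      intro ρ hρ
      rcases Finset.mem_insert.mp hρ with rfl | hρ
      · exact ⟨hrootT y hy0, hyv⟩
      · obtain ⟨x, -, hx0, rfl⟩ := hs_mem ρ hρ
        exact ⟨hrootT x hx0, hs_v _ hρ⟩
    have hmain := val_leadingCoeff_mul_prod_le_one A.valuation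
      (insert (xc _ (y : (P.freyCurve⁄Kbar).Point)) s) (ψ.map (Int.castRingHom Kbar)) hf hroots
    rw [Finset.prod_insert hnot, Polynomial.leadingCoeff_map_of_injective hcast] at hmain
    have hlcv : A.valuation (Int.castRingHom Kbar ψ.leadingCoeff) = A.valuation (P.p : Kbar) := by
      rcases hlc with h | h
      · rw [h]; simp
      · rw [h]; simp
    -- the product over `L \ 0` is rational
    have hrat : ∃ r : ℚ, algebraMap ℚ Kbar r = ∏ ρ ∈ s, ρ := by
      apply (InfiniteGalois.mem_range_algebraMap_iff_fixed _).mpr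
      intro σ
      rw [map_prod]
      have himg : s.image σ = s := by
        apply Finset.eq_of_subset_of_card_le
        · intro ρ' hρ'
          obtain ⟨ρ, hρ, rfl⟩ := Finset.mem_image.mp hρ'
          obtain ⟨x, hxL, hx0, rfl⟩ := hs_mem ρ hρ
          have h1 := mem_s (σ • x) (hL σ x hxL) (by
            intro h
            apply hx0
            apply Subtype.ext
            have h' : σ • (x : (P.freyCurve⁄Kbar).Point) = 0 := congrArg Subtype.val h
            exact (PointAlg.smul_eq_zero_iff σ _).mp h')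
          have h2 : xc _ ((σ • x : Submodule.torsionBy ℤ (P.freyCurve⁄Kbar).Point P.p) :
              (P.freyCurve⁄Kbar).Point) = σ (xc _ (x : (P.freyCurve⁄Kbar).Point)) :=
            xc_smul P σ _
          rw [h2] at h1
          exact h1
        · rw [Finset.card_image_of_injective _ σ.injective]
      calc ∏ ρ ∈ s, σ ρ = ∏ ρ ∈ s.image σ, ρ := by
            rw [Finset.prod_image (fun a _ b _ h => σ.injective h)]
        _ = ∏ ρ ∈ s, ρ := by rw [himg]
    obtain ⟨r, hr⟩ := hrat
    have hprodv : 1 < A.valuation (∏ ρ ∈ s, ρ) := one_lt_val_prod A.valuation s hs_ne hs_v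
    have h1 : 1 ≤ A.valuation ((P.p : Kbar) * ∏ ρ ∈ s, ρ) := by
      rw [← hr]
      exact one_le_val_mul_of_one_lt A P.pp hA r (by rw [hr]; exact hprodv)
    rw [map_mul, map_mul, hlcv] at hmain
    rw [map_mul] at h1
    have hpos : 0 < A.valuation (P.p : Kbar) * A.valuation (∏ ρ ∈ s, ρ) :=
      lt_of_lt_of_le zero_lt_one h1
    have hlt : A.valuation (P.p : Kbar) * A.valuation (∏ ρ ∈ s, ρ) * 1 <
        A.valuation (P.p : Kbar) * A.valuation (∏ ρ ∈ s, ρ) *
          A.valuation (xc _ (y : (P.freyCurve⁄Kbar).Point)) :=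
      mul_lt_mul_of_pos_left hyv hpos
    rw [mul_one] at hlt
    have e2 : A.valuation (P.p : Kbar) * A.valuation (∏ ρ ∈ s, ρ) *
          A.valuation (xc _ (y : (P.freyCurve⁄Kbar).Point)) =
        A.valuation (P.p : Kbar) * (A.valuation (xc _ (y : (P.freyCurve⁄Kbar).Point)) *
          A.valuation (∏ ρ ∈ s, ρ)) := by
      rw [mul_assoc, mul_comm (A.valuation (∏ ρ ∈ s, ρ))]
    rw [e2] at hlt
    exact absurd (lt_of_le_of_lt h1 hlt) (not_lt.mpr hmain)

end Fermat.Agent.S13.LocalP
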