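import Mathlib
import Fermat.Agent.S05.ValBasic

/-!
# S13: an `x`-only Montgomery ladder in the reversed coordinate `w = 1 / x`

For the curve `y ^ 2 = x ^ 3 + β x ^ 2 + γ x` the multiple `k • P` of a point with `w = 1 / x(P)`
is represented by a pair `(a, b)` with `x (k • P) = a / (w * b)` (`b = 0` iff `k • P = 0`).
The ladder is defined over any commutative ring, commutes with ring homomorphisms, and at `w = 0`
its value is `(1, k ^ 2)`.  For `p = 2 m + 1` this produces `Ladder.phi β γ m : ℤ[X]` with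
constant term `p` whose roots are exactly the `1 / x(T)`, `T ≠ 0` of order `p`.
-/

set_option autoImplicit false

namespace Fermat.Agent.S13

open Fermat.Agent.S05 Polynomial

section ring
variable {R S : Type*} [CommRing R] [CommRing S]

/-- doubling, reversed coordinates. -/
def Ladder.dbl (β γ w : R) (s : R × R) : R × R :=
  ((s.1 ^ 2 - γ * w ^ 2 * s.2 ^ 2) ^ 2,
    4 * s.1 * s.2 * (s.1 ^ 2 + β * w * s.1 * s.2 + γ * w ^ 2 * s.2 ^ 2))

/-- differential addition (difference = the base point `(1 : w)`), reversed coordinates. -/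
def Ladder.dadd (β γ w : R) (s t : R × R) : R × R :=
  (2 * ((s.1 * t.2 + t.1 * s.2) * (s.1 * t.1 + γ * w ^ 2 * s.2 * t.2)
      + 2 * β * w * s.1 * t.1 * s.2 * t.2) - (s.1 * t.2 - t.1 * s.2) ^ 2,
    (s.1 * t.2 - t.1 * s.2) ^ 2)

/-- one ladder step: from `(kP, (k+1)P)` to `(2kP, (2k+1)P)` or `((2k+1)P, (2k+2)P)`. -/
def Ladder.step (β γ w : R) (odd : Bool) (s : (R × R) × (R × R)) : (R × R) × (R × R) :=
  if odd then (Ladder.dadd β γ w s.1 s.2, Ladder.dbl β γ w s.2)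
  else (Ladder.dbl β γ w s.1, Ladder.dadd β γ w s.1 s.2)

/-- the ladder: `lad k` represents `(k • P, (k + 1) • P)`. -/
def Ladder.lad (β γ w : R) : ℕ → (R × R) × (R × R)
  | 0 => ((1, 0), (1, 1))
  | (n + 1) => Ladder.step β γ w ((n + 1) % 2 == 1) (Ladder.lad β γ w ((n + 1) / 2))
termination_by n => n
decreasing_by omega

lemma Ladder.lad_zero (β γ w : R) : Ladder.lad β γ w 0 = ((1, 0), (1, 1)) := by
  rw [Ladder.lad]

lemma Ladder.lad_even (β γ w : R) {j : ℕ} (hj : 0 < j) :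
    Ladder.lad β γ w (2 * j) =
      (Ladder.dbl β γ w (Ladder.lad β γ w j).1,
        Ladder.dadd β γ w (Ladder.lad β γ w j).1 (Ladder.lad β γ w j).2) := by
  obtain ⟨n, hn⟩ : ∃ n, 2 * j = n + 1 := ⟨2 * j - 1, by omega⟩
  rw [hn, Ladder.lad]
  have h1 : (n + 1) / 2 = j := by omega
  have h2 : ((n + 1) % 2 == 1) = false := by
    have : (n + 1) % 2 = 0 := by omega
    rw [this]; rfl
  rw [h1, h2]; rfl

lemma Ladder.lad_odd (β γ w : R) (j : ℕ) :
    Ladder.lad β γ w (2 * j + 1) =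
      (Ladder.dadd β γ w (Ladder.lad β γ w j).1 (Ladder.lad β γ w j).2,
        Ladder.dbl β γ w (Ladder.lad β γ w j).2) := by
  rw [Ladder.lad]
  have h1 : (2 * j + 1) / 2 = j := by omega
  have h2 : ((2 * j + 1) % 2 == 1) = true := by
    have : (2 * j + 1) % 2 = 1 := by omega
    rw [this]; rfl
  rw [h1, h2]; rfl

/-- induction principle along the ladder. -/
lemma Ladder.induction {C : ℕ → Prop} (h0 : C 0) (he : ∀ j, 0 < j → C j → C (2 * j))
    (ho : ∀ j, C j → C (2 * j + 1)) (k : ℕ) : C k := by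
  induction k using Nat.strong_induction_on with
  | _ k ih =>
    rcases Nat.even_or_odd' k with ⟨j, hj | hj⟩
    · rcases Nat.eq_zero_or_pos j with h | h
      · rw [hj, h]; exact h0
      · rw [hj]; exact he j h (ih j (by omega))
    · rw [hj]; exact ho j (ih j (by omega))

lemma Ladder.map_dbl (f : R →+* S) (β γ w : R) (s : R × R) :
    Ladder.dbl (f β) (f γ) (f w) (Prod.map f f s) = Prod.map f f (Ladder.dbl β γ w s) := by
  simp [Ladder.dbl, Prod.map, map_ofNat]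

lemma Ladder.map_dadd (f : R →+* S) (β γ w : R) (s t : R × R) :
    Ladder.dadd (f β) (f γ) (f w) (Prod.map f f s) (Prod.map f f t) =
      Prod.map f f (Ladder.dadd β γ w s t) := by
  simp [Ladder.dadd, Prod.map, map_ofNat]

/-- the ladder commutes with ring homomorphisms. -/
lemma Ladder.map_lad (f : R →+* S) (β γ w : R) (k : ℕ) :
    Ladder.lad (f β) (f γ) (f w) k =
      (Prod.map f f (Ladder.lad β γ w k).1, Prod.map f f (Ladder.lad β γ w k).2) := by
  induction k using Ladder.induction with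
  | h0 => simp [Ladder.lad_zero, Prod.map]
  | he j hj ih =>
    rw [Ladder.lad_even _ _ _ hj, Ladder.lad_even _ _ _ hj, ih, Ladder.map_dbl, Ladder.map_dadd]
  | ho j ih =>
    rw [Ladder.lad_odd, Ladder.lad_odd, ih, Ladder.map_dbl, Ladder.map_dadd]

/-- the ladder at `w = 0`. -/
lemma Ladder.lad_at_zero (β γ : R) (k : ℕ) :
    Ladder.lad β γ 0 k = ((1, (k : R) ^ 2), (1, ((k : R) + 1) ^ 2)) := by
  induction k using Ladder.induction with
  | h0 => simp [Ladder.lad_zero]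
  | he j hj ih =>
    rw [Ladder.lad_even _ _ _ hj, ih]
    simp only [Ladder.dbl, Ladder.dadd, Prod.mk.injEq]
    push_cast
    refine ⟨⟨by ring, by ring⟩, by ring, by ring⟩
  | ho j ih =>
    rw [Ladder.lad_odd, ih]
    simp only [Ladder.dbl, Ladder.dadd, Prod.mk.injEq]
    push_cast
    refine ⟨⟨by ring, by ring⟩, by ring, by ring⟩

end ring

section rep
variable {G K : Type*} [AddCommGroup G] [Field K] (D : KummerData G K)

/-- `s = (a, b)` represents the point `Q`: `x Q = a / (w * b)`, and `b = 0` iff `Q = 0`. -/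
def Ladder.Rep (w : K) (s : K × K) (Q : G) : Prop :=
  (Q = 0 → s.2 = 0 ∧ s.1 ≠ 0) ∧ (Q ≠ 0 → s.2 ≠ 0 ∧ s.1 = D.x Q * (w * s.2))

lemma Ladder.add_self_eq_zero_of_y {Q : G} (hQ : Q ≠ 0) (hy : D.y Q = 0) : Q + Q = 0 := by
  have h1 : Q = -Q :=
    D.inj Q (-Q) hQ (neg_ne_zero.mpr hQ) (D.x_neg Q).symm (by rw [D.y_neg, hy, neg_zero])
  nth_rewrite 2 [h1]; exact add_neg_cancel Q

lemma Ladder.y_eq_zero_of_add_self (h2 : (2 : K) ≠ 0) {Q : G} (h : Q + Q = 0) : D.y Q = 0 := by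
  have h1 : Q = -Q := eq_neg_of_add_eq_zero_left h
  have h3 : D.y Q = -D.y Q := by
    have := D.y_neg Q
    rw [← h1] at this; exact this
  have h4 : 2 * D.y Q = 0 := by linear_combination h3
  exact (mul_eq_zero.mp h4).resolve_left h2

lemma Ladder.rep_dbl (h2 : (2 : K) ≠ 0) (hγ0 : D.γ ≠ 0) (hdisc : D.β ^ 2 - 4 * D.γ ≠ 0)
    {w : K} (hw : w ≠ 0) {s : K × K} {Q : G} (h : Ladder.Rep D w s Q) :
    Ladder.Rep D w (Ladder.dbl D.β D.γ w s) (Q + Q) := by
  have h4 : (4 : K) ≠ 0 := by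
    have : (4 : K) = 2 * 2 := by norm_num
    rw [this]; exact mul_ne_zero h2 h2
  by_cases hQ : Q = 0
  · obtain ⟨hb, ha⟩ := h.1 hQ
    subst hQ
    rw [add_zero]
    refine ⟨fun _ => ⟨?_, ?_⟩, fun h0 => absurd rfl h0⟩
    · simp [Ladder.dbl, hb]
    · simp [Ladder.dbl, hb, ha]
  · obtain ⟨hb, ha⟩ := h.2 hQ
    have e := D.eqn Q hQ
    have hB : (Ladder.dbl D.β D.γ w s).2 = 4 * w ^ 3 * s.2 ^ 4 * D.y Q ^ 2 := by
      simp only [Ladder.dbl]; rw [ha, e]; ring
    have hA : (Ladder.dbl D.β D.γ w s).1 = w ^ 4 * s.2 ^ 4 * (D.x Q ^ 2 - D.γ) ^ 2 := by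
      simp only [Ladder.dbl]; rw [ha]; ring
    by_cases hy : D.y Q = 0
    · have hQQ : Q + Q = 0 := Ladder.add_self_eq_zero_of_y D hQ hy
      rw [hQQ]
      refine ⟨fun _ => ⟨?_, ?_⟩, fun h0 => absurd rfl h0⟩
      · rw [hB, hy]; ring
      · rw [hA]
        refine mul_ne_zero (mul_ne_zero (pow_ne_zero 4 hw) (pow_ne_zero 4 hb)) (pow_ne_zero 2 ?_)
        intro hx2
        have hx0 : D.x Q ≠ 0 := by
          intro h0
          apply hγ0
          rw [h0] at hx2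
          linear_combination -hx2
        have h3 : D.x Q * (D.x Q ^ 2 + D.β * D.x Q + D.γ) = 0 := by
          rw [hy] at e; linear_combination -e
        have h5 : D.x Q ^ 2 + D.β * D.x Q + D.γ = 0 := (mul_eq_zero.mp h3).resolve_left hx0
        have h6 : D.x Q * (2 * D.x Q + D.β) = 0 := by linear_combination h5 + hx2
        have h7 : 2 * D.x Q + D.β = 0 := (mul_eq_zero.mp h6).resolve_left hx0
        apply hdisc
        have h8 : D.β = -(2 * D.x Q) := by linear_combination h7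
        rw [h8]; linear_combination 4 * hx2
    · have hQQ : Q + Q ≠ 0 := fun h0 => hy (Ladder.y_eq_zero_of_add_self D h2 h0)
      refine ⟨fun h0 => absurd h0 hQQ, fun _ => ⟨?_, ?_⟩⟩
      · rw [hB]
        exact mul_ne_zero (mul_ne_zero (mul_ne_zero h4 (pow_ne_zero 3 hw)) (pow_ne_zero 4 hb))
          (pow_ne_zero 2 hy)
      · rw [hA, hB]
        have hd := D.dbl_x Q hQ hy
        linear_combination (-(w ^ 4 * s.2 ^ 4)) * hd

lemma Ladder.rep_dadd (h2 : (2 : K) ≠ 0) {w : K} (hw : w ≠ 0) {P : G} (hP : P ≠ 0)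
    (hwx : w * D.x P = 1)
    {s t : K × K} {Q R : G} (hs : Ladder.Rep D w s Q) (ht : Ladder.Rep D w t R)
    (hPQR : R - Q = P) : Ladder.Rep D w (Ladder.dadd D.β D.γ w s t) (Q + R) := by
  have h4 : (4 : K) ≠ 0 := by
    have : (4 : K) = 2 * 2 := by norm_num
    rw [this]; exact mul_ne_zero h2 h2
  by_cases hQ : Q = 0
  · obtain ⟨hb, ha⟩ := hs.1 hQ
    have hR : R = P := by rw [← hPQR, hQ, sub_zero]
    obtain ⟨hb', ha'⟩ := ht.2 (by rw [hR]; exact hP)
    have ht1 : t.1 = t.2 := by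
      rw [ha', hR]; linear_combination t.2 * hwx
    rw [hQ, zero_add, hR]
    refine ⟨fun h0 => absurd h0 hP, fun _ => ⟨?_, ?_⟩⟩
    · simp only [Ladder.dadd, hb, mul_zero, sub_zero]
      exact pow_ne_zero 2 (mul_ne_zero ha hb')
    · simp only [Ladder.dadd, hb, ht1]
      linear_combination (-(s.1 ^ 2 * t.2 ^ 2)) * hwx
  by_cases hR : R = 0
  · obtain ⟨hb', ha'⟩ := ht.1 hR
    obtain ⟨hb, ha⟩ := hs.2 hQ
    have hQP : Q = -P := by rw [← hPQR, hR, zero_sub, neg_neg]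
    have hs1 : s.1 = s.2 := by
      rw [ha, hQP, D.x_neg]; linear_combination s.2 * hwx
    rw [hR, add_zero]
    refine ⟨fun h0 => absurd h0 hQ, fun _ => ⟨?_, ?_⟩⟩
    · simp only [Ladder.dadd, hb', mul_zero, zero_sub]
      exact pow_ne_zero 2 (neg_ne_zero.mpr (mul_ne_zero ha' hb))
    · simp only [Ladder.dadd, hb', hs1]
      rw [hQP, D.x_neg]
      linear_combination (-(t.1 ^ 2 * s.2 ^ 2)) * hwx
  obtain ⟨hb, ha⟩ := hs.2 hQ
  obtain ⟨hb', ha'⟩ := ht.2 hR
  have hD : s.1 * t.2 - t.1 * s.2 = w * s.2 * t.2 * (D.x Q - D.x R) := by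
    rw [ha, ha']; ring
  by_cases hx : D.x Q = D.x R
  · rcases D.eq_or_eq_neg_of_x_eq hQ hR hx with h | h
    · exfalso; apply hP; rw [← hPQR, h, sub_self]
    · have hQR : Q + R = 0 := by rw [h, neg_add_cancel]
      have hy : D.y Q ≠ 0 := by
        intro hy
        have := Ladder.add_self_eq_zero_of_y D hQ hy
        have hQ' : Q = -Q := eq_neg_of_add_eq_zero_left this
        have hRQ : R = Q := by
          have h' : R = -Q := by rw [h, neg_neg]
          rw [h']; exact hQ'.symm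
        apply hP
        rw [← hPQR, hRQ, sub_self]
      rw [hQR]
      refine ⟨fun _ => ⟨?_, ?_⟩, fun h0 => absurd rfl h0⟩
      · simp only [Ladder.dadd]; rw [hD, hx]; ring
      · have e := D.eqn Q hQ
        have hA : (Ladder.dadd D.β D.γ w s t).1 = 4 * w ^ 3 * s.2 ^ 2 * t.2 ^ 2 * D.y Q ^ 2 := by
          simp only [Ladder.dadd]; rw [hD, ha, ha', ← hx, e]; ring
        rw [hA]
        exact mul_ne_zero (mul_ne_zero (mul_ne_zero (mul_ne_zero h4 (pow_ne_zero 3 hw))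
          (pow_ne_zero 2 hb)) (pow_ne_zero 2 hb')) (pow_ne_zero 2 hy)
  · have hQR : Q + R ≠ 0 := by
      intro h0
      apply hx
      have : Q = -R := eq_neg_of_add_eq_zero_left h0
      rw [this, D.x_neg]
    refine ⟨fun h0 => absurd h0 hQR, fun _ => ⟨?_, ?_⟩⟩
    · simp only [Ladder.dadd]; rw [hD]
      exact pow_ne_zero 2 (mul_ne_zero (mul_ne_zero (mul_ne_zero hw hb) hb')
        (sub_ne_zero.mpr hx))
    · have hsum := D.sum_x hR hQ (Ne.symm hx)
      rw [hPQR, add_comm R Q] at hsum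
      simp only [Ladder.dadd]; rw [hD, ha, ha']
      linear_combination (-(w ^ 3 * s.2 ^ 2 * t.2 ^ 2)) * hsum
        + (w ^ 2 * s.2 ^ 2 * t.2 ^ 2 * (D.x Q - D.x R) ^ 2) * hwx

/-- correctness of the ladder. -/
theorem Ladder.rep_lad (h2 : (2 : K) ≠ 0) (hγ0 : D.γ ≠ 0) (hdisc : D.β ^ 2 - 4 * D.γ ≠ 0)
    {w : K} (hw : w ≠ 0) {P : G} (hP : P ≠ 0) (hwx : w * D.x P = 1) (k : ℕ) :
    Ladder.Rep D w (Ladder.lad D.β D.γ w k).1 (k • P) ∧
      Ladder.Rep D w (Ladder.lad D.β D.γ w k).2 ((k + 1) • P) := by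
  induction k using Ladder.induction with
  | h0 =>
    rw [Ladder.lad_zero, zero_nsmul, zero_add, one_nsmul]
    refine ⟨⟨fun _ => ⟨rfl, one_ne_zero⟩, fun h0 => absurd rfl h0⟩,
      ⟨fun h0 => absurd h0 hP, fun _ => ⟨one_ne_zero, ?_⟩⟩⟩
    show (1 : K) = D.x P * (w * 1)
    linear_combination -hwx
  | he j hj ih =>
    rw [Ladder.lad_even _ _ _ hj]
    obtain ⟨h1, h2'⟩ := ih
    refine ⟨?_, ?_⟩
    · have := Ladder.rep_dbl D h2 hγ0 hdisc hw h1
      rwa [← add_nsmul, ← two_mul] at this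
    · have := Ladder.rep_dadd D h2 hw hP hwx h1 h2' (by rw [add_nsmul, one_nsmul]; abel)
      rwa [← add_nsmul, ← add_assoc, ← two_mul] at this
  | ho j ih =>
    rw [Ladder.lad_odd]
    obtain ⟨h1, h2'⟩ := ih
    refine ⟨?_, ?_⟩
    · have := Ladder.rep_dadd D h2 hw hP hwx h1 h2' (by rw [add_nsmul, one_nsmul]; abel)
      rwa [← add_nsmul, ← add_assoc, ← two_mul] at this
    · have := Ladder.rep_dbl D h2 hγ0 hdisc hw h2'
      rw [← add_nsmul] at this
      have e : j + 1 + (j + 1) = 2 * j + 1 + 1 := by ring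
      rwa [e] at this

/-- the ladder detects `(2 m + 1)`-torsion. -/
theorem Ladder.torsion_iff (h2 : (2 : K) ≠ 0) (hγ0 : D.γ ≠ 0) (hdisc : D.β ^ 2 - 4 * D.γ ≠ 0)
    {w : K} (hw : w ≠ 0) {P : G} (hP : P ≠ 0) (hwx : w * D.x P = 1) (m : ℕ) :
    (Ladder.lad D.β D.γ w m).1.1 * (Ladder.lad D.β D.γ w m).2.2
      - (Ladder.lad D.β D.γ w m).2.1 * (Ladder.lad D.β D.γ w m).1.2 = 0 ↔
    (2 * m + 1) • P = 0 := by
  obtain ⟨h1, h2'⟩ := Ladder.rep_lad D h2 hγ0 hdisc hw hP hwx m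
  generalize (Ladder.lad D.β D.γ w m).1 = s at h1
  generalize (Ladder.lad D.β D.γ w m).2 = t at h2'
  have hsplit : (2 * m + 1) • P = m • P + (m + 1) • P := by rw [← add_nsmul]; congr 1; ring
  have hdiff : (m + 1) • P - m • P = P := by rw [add_nsmul, one_nsmul]; abel
  constructor
  · intro h
    have h' : s.1 * t.2 = t.1 * s.2 := sub_eq_zero.mp h
    by_cases hQ : m • P = 0
    · exfalso
      obtain ⟨hb, ha⟩ := h1.1 hQ
      rw [hb, mul_zero] at h'
      have ht2 : t.2 = 0 := (mul_eq_zero.mp h').resolve_left ha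
      have hR : (m + 1) • P = 0 := by
        by_contra hR
        exact (h2'.2 hR).1 ht2
      apply hP
      rw [← hdiff, hR, hQ, sub_zero]
    by_cases hR : (m + 1) • P = 0
    · exfalso
      obtain ⟨hb', ha'⟩ := h2'.1 hR
      rw [hb', mul_zero] at h'
      exact (h1.2 hQ).1 ((mul_eq_zero.mp h'.symm).resolve_left ha')
    obtain ⟨hb, ha⟩ := h1.2 hQ
    obtain ⟨hb', ha'⟩ := h2'.2 hR
    have hxx : D.x (m • P) = D.x ((m + 1) • P) := by
      have h3 : (D.x (m • P) - D.x ((m + 1) • P)) * (w * s.2 * t.2) = 0 := by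
        rw [ha, ha'] at h'; linear_combination h'
      have := (mul_eq_zero.mp h3).resolve_right (mul_ne_zero (mul_ne_zero hw hb) hb')
      exact sub_eq_zero.mp this
    rcases D.eq_or_eq_neg_of_x_eq hQ hR hxx with h5 | h5
    · exfalso; apply hP; rw [← hdiff, h5, sub_self]
    · rw [hsplit, h5, neg_add_cancel]
  · intro h
    have h5 : m • P = -((m + 1) • P) := by
      rw [hsplit] at h; exact eq_neg_of_add_eq_zero_left h
    have hQ : m • P ≠ 0 := by
      intro hQ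
      apply hP
      have hR : (m + 1) • P = 0 := by rw [hQ] at h5; exact neg_eq_zero.mp h5.symm
      rw [← hdiff, hR, hQ, sub_zero]
    have hR : (m + 1) • P ≠ 0 := by
      intro hR; apply hQ; rw [h5, hR, neg_zero]
    obtain ⟨hb, ha⟩ := h1.2 hQ
    obtain ⟨hb', ha'⟩ := h2'.2 hR
    rw [ha, ha', h5, D.x_neg]; ring

end rep

section poly

/-- the ladder polynomial: constant term `2 m + 1`, roots `1 / x(T)` for `T` of order
`2 m + 1`. -/
noncomputable def Ladder.phi (β γ : ℤ) (m : ℕ) : ℤ[X] :=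
  (Ladder.lad (C β : ℤ[X]) (C γ) X m).1.1 * (Ladder.lad (C β : ℤ[X]) (C γ) X m).2.2
    - (Ladder.lad (C β : ℤ[X]) (C γ) X m).2.1 * (Ladder.lad (C β : ℤ[X]) (C γ) X m).1.2

lemma Ladder.phi_hom {S : Type*} [CommRing S] (f : ℤ[X] →+* S) (β γ : ℤ) (m : ℕ) :
    f (Ladder.phi β γ m) =
      (Ladder.lad (f (C β)) (f (C γ)) (f X) m).1.1 * (Ladder.lad (f (C β)) (f (C γ)) (f X) m).2.2
      - (Ladder.lad (f (C β)) (f (C γ)) (f X) m).2.1
        * (Ladder.lad (f (C β)) (f (C γ)) (f X) m).1.2 := by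
  rw [Ladder.map_lad f]
  simp [Ladder.phi, Prod.map]

theorem Ladder.phi_eval_zero (β γ : ℤ) (m : ℕ) : (Ladder.phi β γ m).eval 0 = 2 * (m : ℤ) + 1 := by
  have h := Ladder.phi_hom (Polynomial.evalRingHom (0 : ℤ)) β γ m
  simp only [Polynomial.coe_evalRingHom, Polynomial.eval_C, Polynomial.eval_X] at h
  rw [h, Ladder.lad_at_zero]
  simp only
  ring

theorem Ladder.phi_eval {K : Type*} [Field K] (β γ : ℤ) (m : ℕ) (w : K) :
    ((Ladder.phi β γ m).map (Int.castRingHom K)).eval w =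
      (Ladder.lad (β : K) (γ : K) w m).1.1 * (Ladder.lad (β : K) (γ : K) w m).2.2
      - (Ladder.lad (β : K) (γ : K) w m).2.1 * (Ladder.lad (β : K) (γ : K) w m).1.2 := by
  have h := Ladder.phi_hom (Polynomial.eval₂RingHom (Int.castRingHom K) w) β γ m
  simp only [Polynomial.coe_eval₂RingHom, Polynomial.eval₂_C, Polynomial.eval₂_X] at h
  rw [Polynomial.eval_map, h]
  rfl

/-- the roots of `phi`: for a nonzero point `P` with `x P ≠ 0`, `1 / x P` is a root iff
`(2 m + 1) • P = 0`. -/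
theorem Ladder.phi_root_iff {G K : Type*} [AddCommGroup G] [Field K] (D : KummerData G K)
    (β γ : ℤ) (hβ : D.β = (β : K)) (hγ : D.γ = (γ : K))
    (h2 : (2 : K) ≠ 0) (hγ0 : D.γ ≠ 0) (hdisc : D.β ^ 2 - 4 * D.γ ≠ 0) (m : ℕ)
    {P : G} (hP : P ≠ 0) (hx : D.x P ≠ 0) :
    ((Ladder.phi β γ m).map (Int.castRingHom K)).eval (D.x P)⁻¹ = 0 ↔ (2 * m + 1) • P = 0 := by
  rw [Ladder.phi_eval, ← hβ, ← hγ]
  exact Ladder.torsion_iff D h2 hγ0 hdisc (inv_ne_zero hx) hP (inv_mul_cancel₀ hx) m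

end poly

end Fermat.Agent.S13
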