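import Mathlib
import Fermat.Agent.S05.ValF1
import Fermat.Agent.S13.Ladder

/-!
# S13, local analysis at `p`: the `p`-torsion is not contained in the kernel of reduction
(abstract form)

If every point of order `p = 2 m + 1` had `v (x) > 1`, every root of the ladder polynomial
`Ladder.phi` (constant term `p`, integral coefficients) would have valuation `< 1`; hence the
product of the valuations of any family of distinct roots is at least `v p`.
-/

set_option autoImplicit false

namespace Fermat.Agent.S13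

open Fermat.Agent.S05 Polynomial

section order
variable {Γ₀ : Type*} [LinearOrderedCommGroupWithZero Γ₀]

lemma PDeep.multiset_prod_le_one (M : Multiset Γ₀) (h : ∀ a ∈ M, a ≤ 1) : M.prod ≤ 1 := by
  induction M using Multiset.induction with
  | empty => simp
  | cons a M ih =>
    rw [Multiset.prod_cons]
    have h1 : a ≤ 1 := h a (Multiset.mem_cons_self a M)
    have h2 : M.prod ≤ 1 := ih (fun b hb => h b (Multiset.mem_cons_of_mem hb))
    calc a * M.prod ≤ 1 * 1 := mul_le_mul' h1 h2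
      _ = 1 := one_mul 1

lemma PDeep.multiset_prod_le (M N : Multiset Γ₀) (hNM : N ≤ M) (h : ∀ a ∈ M, a ≤ 1) :
    M.prod ≤ N.prod := by
  have e : M = N + (M - N) := (add_tsub_cancel_of_le hNM).symm
  have h2 : (M - N).prod ≤ 1 :=
    PDeep.multiset_prod_le_one _ (fun a ha => h a (Multiset.mem_of_le (Multiset.sub_le_self M N) ha))
  rw [e, Multiset.prod_add]
  calc N.prod * (M - N).prod ≤ N.prod * 1 := mul_le_mul' le_rfl h2
    _ = N.prod := mul_one _

end order

/-- **Abstract (pdeep).**  Assume every point of order dividing `2 m + 1` lies in the kernel of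
reduction.  Then for any finite set `S` of values `1 / x (T)` (`T ≠ 0` killed by `2 m + 1`), the
product of the valuations is at least `v (2 m + 1)`. -/
theorem PDeep.main {G K Γ₀ : Type*} [AddCommGroup G] [Field K] [IsAlgClosed K] [CharZero K]
    [LinearOrderedCommGroupWithZero Γ₀] (D : KummerData G K) (v : Valuation K Γ₀)
    (β γ : ℤ) (hβ : D.β = (β : K)) (hγ : D.γ = (γ : K)) (hγ0 : D.γ ≠ 0)
    (hdisc : D.β ^ 2 - 4 * D.γ ≠ 0)
    (hsurj : ∀ x : K, ∃ P : G, P ≠ 0 ∧ D.x P = x)
    (m : ℕ) (hall : ∀ T : G, T ≠ 0 → (2 * m + 1) • T = 0 → 1 < v (D.x T))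
    (S : Finset K) (hS : ∀ r ∈ S, ∃ T : G, T ≠ 0 ∧ (2 * m + 1) • T = 0 ∧ D.x T = r⁻¹) :
    v ((2 * m + 1 : ℕ) : K) ≤ ∏ r ∈ S, v r := by
  have h2 : (2 : K) ≠ 0 := two_ne_zero
  set φ : K[X] := (Ladder.phi β γ m).map (Int.castRingHom K) with hφ
  have hφ0 : φ.eval 0 = ((2 * m + 1 : ℕ) : K) := by
    rw [hφ, Polynomial.eval_zero_map, Ladder.phi_eval_zero]
    simp
  have hpK : ((2 * m + 1 : ℕ) : K) ≠ 0 := Nat.cast_ne_zero.mpr (by omega)
  have hφne : φ ≠ 0 := by
    intro h; rw [h, Polynomial.eval_zero] at hφ0; exact hpK hφ0.symm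
  -- every root has valuation `< 1`
  have hroot : ∀ r ∈ φ.roots, v r < 1 := by
    intro r hr
    have hr' : φ.eval r = 0 := (Polynomial.mem_roots hφne).mp hr
    have hr0 : r ≠ 0 := by
      rintro rfl; rw [hφ0] at hr'; exact hpK hr'
    obtain ⟨P, hP0, hPx⟩ := hsurj r⁻¹
    have hx0 : D.x P ≠ 0 := by rw [hPx]; exact inv_ne_zero hr0
    have htors : (2 * m + 1) • P = 0 := by
      apply (Ladder.phi_root_iff D β γ hβ hγ h2 hγ0 hdisc m hP0 hx0).mp
      rw [hPx, inv_inv]; exact hr'
    have := hall P hP0 htors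
    rw [hPx] at this
    have h3 := val_inv_lt_one v this
    rwa [inv_inv] at h3
  -- the elements of `S` are roots
  have hSroot : S.val ≤ φ.roots := by
    rw [Multiset.le_iff_subset S.nodup]
    intro r hr
    obtain ⟨T, hT0, hT, hTx⟩ := hS r (Finset.mem_val.mp hr)
    have hbig := hall T hT0 hT
    have hx0 : D.x T ≠ 0 := ne_zero_of_one_lt v hbig
    rw [Polynomial.mem_roots hφne]
    have := (Ladder.phi_root_iff D β γ hβ hγ h2 hγ0 hdisc m hT0 hx0).mpr hT
    rw [hTx, inv_inv] at this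
    exact this
  -- evaluate at `0`
  have hsplit : φ.Splits := IsAlgClosed.splits φ
  have hev := hsplit.eval_eq_prod_roots 0
  rw [hφ0] at hev
  have hlead : v φ.leadingCoeff ≤ 1 := by
    have : φ.leadingCoeff = ((Ladder.phi β γ m).coeff φ.natDegree : K) := by
      rw [Polynomial.leadingCoeff, hφ, Polynomial.coeff_map]; simp
    rw [this]
    exact le_one_of_mem v (intCast_mem _ _)
  have hprodv : v ((φ.roots.map (fun a => 0 - a)).prod) = (φ.roots.map v).prod := by
    rw [map_multiset_prod, Multiset.map_map]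
    congr 1
    apply Multiset.map_congr rfl
    intro a _
    simp
  have h5 := congrArg v hev
  rw [map_mul, hprodv] at h5
  have h6 : (φ.roots.map v).prod ≤ (S.val.map v).prod := by
    apply PDeep.multiset_prod_le _ _ (Multiset.map_le_map hSroot)
    intro a ha
    obtain ⟨r, hr, rfl⟩ := Multiset.mem_map.mp ha
    exact (hroot r hr).le
  rw [h5]
  calc v φ.leadingCoeff * (φ.roots.map v).prod ≤ 1 * (S.val.map v).prod := mul_le_mul' hlead h6
    _ = ∏ r ∈ S, v r := by rw [one_mul]; rfl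

/-- For an integer polynomial `φ` and finitely many distinct integral roots, the valuation of
the constant term is at most the product of the valuations of these roots. -/
theorem PDeep.root_prod_le {K Γ₀ : Type*} [Field K] [LinearOrderedCommGroupWithZero Γ₀]
    (v : Valuation K Γ₀) (φ : ℤ[X]) (hφ0 : ((φ.eval 0 : ℤ) : K) ≠ 0) (S : Finset K)
    (hS : ∀ r ∈ S, v r ≤ 1 ∧ (φ.map (Int.castRingHom K)).eval r = 0) :
    v ((φ.eval 0 : ℤ) : K) ≤ ∏ r ∈ S, v r := by
  classical
  have hcomp : (v.integer.subtype).comp (Int.castRingHom v.integer) = Int.castRingHom K :=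
    RingHom.ext_int _ _
  set φO : (v.integer)[X] := φ.map (Int.castRingHom v.integer) with hφO
  have hev : ∀ ρ : v.integer, ((φO.eval ρ : v.integer) : K) =
      (φ.map (Int.castRingHom K)).eval (ρ : K) := by
    intro ρ
    rw [hφO, Polynomial.eval_map, Polynomial.eval_map]
    have := Polynomial.hom_eval₂ φ (Int.castRingHom v.integer) v.integer.subtype ρ
    rw [hcomp] at this
    exact this
  have hev0 : ((φO.eval 0 : v.integer) : K) = ((φ.eval 0 : ℤ) : K) := by
    rw [hφO, Polynomial.eval_zero_map]; simp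
  have hφOne : φO ≠ 0 := by
    intro h
    rw [h, Polynomial.eval_zero] at hev0
    exact hφ0 (by rw [← hev0]; rfl)
  set SO : Finset v.integer := S.subtype (fun r => r ∈ v.integer) with hSO
  have hroots : SO.val ≤ φO.roots := by
    rw [Multiset.le_iff_subset SO.nodup]
    intro ρ hρ
    have hρS : (ρ : K) ∈ S := Finset.mem_subtype.mp (Finset.mem_val.mp hρ)
    rw [Polynomial.mem_roots hφOne, Polynomial.IsRoot]
    apply Subtype.ext
    rw [hev ρ, (hS _ hρS).2]; rfl
  obtain ⟨g, hg⟩ := (Multiset.prod_X_sub_C_dvd_iff_le_roots hφOne SO.val).mpr hroots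
  have h1 : φO.eval 0 = (∏ ρ ∈ SO, (0 - ρ)) * g.eval 0 := by
    rw [hg, Polynomial.eval_mul, Polynomial.eval_multiset_prod, Multiset.map_map]
    congr 1
    show (Multiset.map _ SO.val).prod = (Multiset.map _ SO.val).prod
    congr 1
    apply Multiset.map_congr rfl
    intro ρ _
    simp
  have h2 : ((φ.eval 0 : ℤ) : K) = (∏ ρ ∈ SO, (0 - (ρ : K))) * ((g.eval 0 : v.integer) : K) := by
    rw [← hev0, h1]
    push_cast
    rfl
  have hprod : ∏ ρ ∈ SO, v (ρ : K) = ∏ r ∈ S, v r :=
    Finset.prod_subtype_of_mem (fun r => v r) (fun r hr => mem_int v (hS r hr).1)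
  rw [h2, map_mul, map_prod]
  have h3 : ∏ ρ ∈ SO, v (0 - (ρ : K)) = ∏ ρ ∈ SO, v (ρ : K) :=
    Finset.prod_congr rfl (fun ρ _ => by rw [zero_sub, Valuation.map_neg])
  rw [h3, hprod]
  calc (∏ r ∈ S, v r) * v ((g.eval 0 : v.integer) : K) ≤ (∏ r ∈ S, v r) * 1 :=
        mul_le_mul' le_rfl (le_one_of_mem v (g.eval 0).2)
    _ = ∏ r ∈ S, v r := mul_one _

/-- **Abstract (pdeep), strong form.**  For any finite set `S` of values `1 / x (T)`, `T ≠ 0`
killed by `2 m + 1` and lying in the kernel of reduction, the product of the valuations is at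
least `v (2 m + 1)`.  (No hypothesis on the other torsion points, no algebraic closedness.) -/
theorem PDeep.strong {G K Γ₀ : Type*} [AddCommGroup G] [Field K]
    [LinearOrderedCommGroupWithZero Γ₀] (D : KummerData G K) (v : Valuation K Γ₀)
    (β γ : ℤ) (hβ : D.β = (β : K)) (hγ : D.γ = (γ : K)) (h2 : (2 : K) ≠ 0) (hγ0 : D.γ ≠ 0)
    (hdisc : D.β ^ 2 - 4 * D.γ ≠ 0) (m : ℕ) (hp : ((2 * m + 1 : ℕ) : K) ≠ 0)
    (S : Finset K)
    (hS : ∀ r ∈ S, ∃ T : G, T ≠ 0 ∧ (2 * m + 1) • T = 0 ∧ 1 < v (D.x T) ∧ D.x T = r⁻¹) :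
    v ((2 * m + 1 : ℕ) : K) ≤ ∏ r ∈ S, v r := by
  have h0 : (Ladder.phi β γ m).eval 0 = ((2 * m + 1 : ℕ) : ℤ) := by
    rw [Ladder.phi_eval_zero]; push_cast; ring
  have h0K : (((Ladder.phi β γ m).eval 0 : ℤ) : K) = ((2 * m + 1 : ℕ) : K) := by
    rw [h0]; simp
  have := PDeep.root_prod_le v (Ladder.phi β γ m) (by rw [h0K]; exact hp) S (by
    intro r hr
    obtain ⟨T, hT0, hT, hbig, hTx⟩ := hS r hr
    have hx0 : D.x T ≠ 0 := ne_zero_of_one_lt v hbig
    have hr' : r = (D.x T)⁻¹ := by rw [hTx, inv_inv]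
    refine ⟨?_, ?_⟩
    · rw [hr']; exact (val_inv_lt_one v hbig).le
    · rw [hr']
      exact (Ladder.phi_root_iff D β γ hβ hγ h2 hγ0 hdisc m hT0 hx0).mpr hT)
  rwa [h0K] at this

end Fermat.Agent.S13
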