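import Mathlib
import Fermat.Agent.S05.ValEnd

/-!
# S13, local analysis at `p`: inertia moves torsion points inside the kernel of reduction

Abstract (`KummerData`) layer.  `PLocal.E1` is the kernel of reduction (points whose
`x`-coordinate has valuation `> 1`, together with `0`), shown to be a subgroup by the `x`-only
sum/product formulas.  `PLocal.kummer_inertia` is the S05 engine with the step
"a torsion point has integral `x`" (which needs `v p = 1`) removed.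
-/

set_option autoImplicit false

namespace Fermat.Agent.S13

open Fermat.Agent.S05

section field
variable {K Γ₀ : Type*} [Field K] [LinearOrderedCommGroupWithZero Γ₀] (v : Valuation K Γ₀)

/-- chord step, ordered form. -/
lemma PLocal.chord_aux {β γ xP xQ Xp Xm : K} (hβ : v β ≤ 1) (hγ : v γ ≤ 1)
    (hP : 1 < v xP) (hQ : 1 < v xQ) (hle : v xQ ≤ v xP) (hne : xP ≠ xQ)
    (hprod : Xp * Xm * (xP - xQ) ^ 2 = (xP * xQ - γ) ^ 2)
    (hsum : (Xp + Xm) * (xP - xQ) ^ 2 =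
      2 * ((xP + xQ) * (xP * xQ + γ) + 2 * β * (xP * xQ))) :
    1 < v Xm := by
  by_contra hcon
  rw [not_lt] at hcon
  set a := v xP with ha
  set b := v xQ with hb
  have ha0 : 0 < a := lt_trans zero_lt_one hP
  have hb0 : 0 < b := lt_trans zero_lt_one hQ
  have hab1 : 1 < a * b := by
    calc (1 : Γ₀) = 1 * 1 := (one_mul 1).symm
      _ < a * b := mul_lt_mul'' hP hQ zero_le zero_le
  have hδ0 : xP - xQ ≠ 0 := sub_ne_zero.mpr hne
  have hδpos : 0 < v (xP - xQ) := v.pos_iff.mpr hδ0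
  have hδle : v (xP - xQ) ≤ a := v.map_sub_le le_rfl hle
  -- numerator of the product
  have hnum : v (xP * xQ - γ) = a * b := by
    have : v γ < v (xP * xQ) := by rw [map_mul]; exact lt_of_le_of_lt hγ hab1
    rw [v.map_sub_eq_of_lt_left this, map_mul]
  have h1 := congrArg v hprod
  rw [map_mul, map_mul, map_pow, map_pow, hnum] at h1
  -- bound for the sum
  have h2' : v (2 : K) ≤ 1 := by exact_mod_cast val_natCast_le_one v 2
  have hs1 : v ((xP + xQ) * (xP * xQ + γ)) ≤ a * (a * b) := by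
    rw [map_mul]
    have h3 : v (xP + xQ) ≤ a := v.map_add_le le_rfl hle
    have h4 : v (xP * xQ + γ) ≤ a * b := by
      refine v.map_add_le (by rw [map_mul]) (hγ.trans hab1.le)
    exact mul_le_mul' h3 h4
  have hs2 : v (2 * β * (xP * xQ)) ≤ a * (a * b) := by
    rw [map_mul, map_mul, map_mul]
    calc v 2 * v β * (a * b) ≤ 1 * 1 * (a * b) := by gcongr
      _ = 1 * (a * b) := by rw [one_mul]
      _ ≤ a * (a * b) := by gcongr
  have hS : v (Xp + Xm) * v (xP - xQ) ^ 2 ≤ a * (a * b) := by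
    have h5 := congrArg v hsum
    rw [map_mul, map_pow] at h5
    rw [h5, map_mul]
    calc v 2 * v ((xP + xQ) * (xP * xQ + γ) + 2 * β * (xP * xQ))
        ≤ 1 * (a * (a * b)) := by
          gcongr
          exact v.map_add_le hs1 hs2
      _ = a * (a * b) := one_mul _
  -- lower bound for `Xp`
  have h3 : (a * b) ^ 2 ≤ v Xp * v (xP - xQ) ^ 2 := by
    rw [← h1]
    calc v Xp * v Xm * v (xP - xQ) ^ 2 ≤ v Xp * 1 * v (xP - xQ) ^ 2 := by gcongr
      _ = v Xp * v (xP - xQ) ^ 2 := by rw [mul_one]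
  have hδ2 : v (xP - xQ) ^ 2 ≤ a ^ 2 := pow_le_pow_left₀ zero_le hδle 2
  have hXp : 1 < v Xp := by
    by_contra hX
    rw [not_lt] at hX
    have h4 : v Xp * v (xP - xQ) ^ 2 ≤ 1 * a ^ 2 := mul_le_mul' hX hδ2
    rw [one_mul] at h4
    have h5 : a ^ 2 < (a * b) ^ 2 := by
      apply pow_lt_pow_left₀ _ zero_le (by norm_num)
      calc a = a * 1 := (mul_one a).symm
        _ < a * b := mul_lt_mul_of_pos_left hQ ha0
    exact absurd (h3.trans h4) (not_le.mpr h5)
  have hsumv : v (Xp + Xm) = v Xp :=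
    v.map_add_eq_of_lt_left (lt_of_le_of_lt hcon hXp)
  rw [hsumv] at hS
  have h6 : (a * b) ^ 2 ≤ a * (a * b) := h3.trans hS
  have h7 : a * (a * b) < (a * b) ^ 2 := by
    have : (a * b) ^ 2 = a * (a * b) * b := by rw [sq]; ac_rfl
    rw [this]
    calc a * (a * b) = a * (a * b) * 1 := (mul_one _).symm
      _ < a * (a * b) * b :=
        mul_lt_mul_of_pos_left hQ (mul_pos ha0 (mul_pos ha0 hb0))
  exact absurd h6 (not_le.mpr h7)

/-- chord step: both `x(P + Q)` and `x(P - Q)` have valuation `> 1`. -/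
lemma PLocal.chord {β γ xP xQ Xp Xm : K} (hβ : v β ≤ 1) (hγ : v γ ≤ 1)
    (hP : 1 < v xP) (hQ : 1 < v xQ) (hne : xP ≠ xQ)
    (hprod : Xp * Xm * (xP - xQ) ^ 2 = (xP * xQ - γ) ^ 2)
    (hsum : (Xp + Xm) * (xP - xQ) ^ 2 =
      2 * ((xP + xQ) * (xP * xQ + γ) + 2 * β * (xP * xQ))) :
    1 < v Xp ∧ 1 < v Xm := by
  have key : ∀ {Yp Ym : K}, Yp * Ym * (xP - xQ) ^ 2 = (xP * xQ - γ) ^ 2 →
      (Yp + Ym) * (xP - xQ) ^ 2 = 2 * ((xP + xQ) * (xP * xQ + γ) + 2 * β * (xP * xQ)) →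
      1 < v Ym := by
    intro Yp Ym h1 h2
    rcases le_total (v xQ) (v xP) with hle | hle
    · exact PLocal.chord_aux v hβ hγ hP hQ hle hne h1 h2
    · refine PLocal.chord_aux v hβ hγ hQ hP hle (Ne.symm hne) (Xp := Yp) ?_ ?_
      · rw [← sub_eq_zero]; rw [← sub_eq_zero] at h1; rw [← h1]; ring
      · rw [← sub_eq_zero]; rw [← sub_eq_zero] at h2; rw [← h2]; ring
  refine ⟨key (Yp := Xm) ?_ ?_, key hprod hsum⟩
  · rw [← hprod]; ring
  · rw [← hsum]; ring

/-- doubling step. -/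
lemma PLocal.dbl {β γ x y X2 : K} (hβ : v β ≤ 1) (hγ : v γ ≤ 1) (hx : 1 < v x)
    (e : y ^ 2 = x ^ 3 + β * x ^ 2 + γ * x) (h : X2 * (4 * y ^ 2) = (x ^ 2 - γ) ^ 2) :
    1 < v X2 := by
  have hx0 : 0 < v x := lt_trans zero_lt_one hx
  have hx2 : 1 < v x ^ 2 := one_lt_pow₀ hx (by norm_num)
  have hnum : v (x ^ 2 - γ) = v x ^ 2 := by
    have : v γ < v (x ^ 2) := by rw [map_pow]; exact lt_of_le_of_lt hγ hx2
    rw [v.map_sub_eq_of_lt_left this, map_pow]
  have hy : v (y ^ 2) = v x ^ 3 := by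
    rw [e]
    have h1 : v (β * x ^ 2) < v (x ^ 3) := by
      rw [map_mul, map_pow, map_pow]
      calc v β * v x ^ 2 ≤ 1 * v x ^ 2 := by gcongr
        _ = v x ^ 2 := one_mul _
        _ < v x ^ 3 := pow_lt_pow_right₀ hx (by norm_num)
    have h2 : v (x ^ 3 + β * x ^ 2) = v (x ^ 3) := v.map_add_eq_of_lt_left h1
    have h3 : v (γ * x) < v (x ^ 3 + β * x ^ 2) := by
      rw [h2, map_mul, map_pow]
      calc v γ * v x ≤ 1 * v x := by gcongr
        _ = v x ^ 1 := by rw [one_mul, pow_one]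
        _ < v x ^ 3 := pow_lt_pow_right₀ hx (by norm_num)
    rw [v.map_add_eq_of_lt_left h3, h2, map_pow]
  have h4 : v (4 : K) ≤ 1 := by exact_mod_cast val_natCast_le_one v 4
  have h5 := congrArg v h
  rw [map_mul, map_mul, hy, map_pow, hnum] at h5
  by_contra hcon
  rw [not_lt] at hcon
  have h6 : v X2 * (v 4 * v x ^ 3) ≤ 1 * (1 * v x ^ 3) := by gcongr
  rw [h5, one_mul, one_mul] at h6
  have h7 : v x ^ 3 < (v x ^ 2) ^ 2 := by
    rw [← pow_mul]; exact pow_lt_pow_right₀ hx (by norm_num)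
  exact absurd h6 (not_le.mpr h7)

end field

section group
variable {G K Γ₀ : Type*} [AddCommGroup G] [Field K] [LinearOrderedCommGroupWithZero Γ₀]
  (D : KummerData G K) (v : Valuation K Γ₀)

lemma PLocal.add_big (hβ : v D.β ≤ 1) (hγ : v D.γ ≤ 1) {P Q : G}
    (hP : 1 < v (D.x P)) (hQ : 1 < v (D.x Q)) (hP0 : P ≠ 0) (hQ0 : Q ≠ 0) :
    P + Q = 0 ∨ 1 < v (D.x (P + Q)) := by
  by_cases hne : D.x P = D.x Q
  · rcases D.eq_or_eq_neg_of_x_eq hP0 hQ0 hne with h | h
    · subst h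
      by_cases hy : D.y P = 0
      · left
        have h1 : P = -P :=
          D.inj P (-P) hP0 (neg_ne_zero.mpr hP0) (D.x_neg P).symm (by rw [D.y_neg, hy, neg_zero])
        nth_rewrite 2 [h1]; exact add_neg_cancel P
      · right
        exact PLocal.dbl v hβ hγ hP (D.eqn P hP0) (D.dbl_x P hP0 hy)
    · left; rw [h, neg_add_cancel]
  · right
    exact (PLocal.chord v hβ hγ hP hQ hne (D.prod_x hP0 hQ0 hne) (D.sum_x hP0 hQ0 hne)).1

/-- The kernel of reduction: `0` together with the points whose `x`-coordinate is not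
integral. -/
def PLocal.E1 (hβ : v D.β ≤ 1) (hγ : v D.γ ≤ 1) : AddSubgroup G where
  carrier := {P | P = 0 ∨ 1 < v (D.x P)}
  zero_mem' := Or.inl rfl
  neg_mem' := by
    rintro P (h | h)
    · left; rw [h, neg_zero]
    · right; rwa [D.x_neg]
  add_mem' := by
    rintro P Q (hP | hP) (hQ | hQ)
    · left; rw [hP, hQ, add_zero]
    · right; rw [hP, zero_add]; exact hQ
    · right; rw [hQ, add_zero]; exact hP
    · by_cases hP0 : P = 0
      · right; rw [hP0, zero_add]; exact hQ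
      by_cases hQ0 : Q = 0
      · right; rw [hQ0, add_zero]; exact hP
      exact PLocal.add_big D v hβ hγ hP hQ hP0 hQ0

lemma PLocal.mem_E1 (hβ : v D.β ≤ 1) (hγ : v D.γ ≤ 1) (P : G) :
    P ∈ PLocal.E1 D v hβ hγ ↔ P = 0 ∨ 1 < v (D.x P) := Iff.rfl

variable (τ : G →+ G) (σ : K →+* K)

/-- a ring endomorphism that is trivial on the residue field preserves `{v > 1}`. -/
lemma PLocal.sigma_big (hσ1 : ∀ a, v a ≤ 1 → v (σ a - a) < 1) {a : K} (ha : 1 < v a) :
    1 < v (σ a) := by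
  have ha0 : a ≠ 0 := ne_zero_of_one_lt v ha
  have h1 : v a⁻¹ < 1 := val_inv_lt_one v ha
  have h2 : v (σ a⁻¹ - a⁻¹) < 1 := hσ1 _ h1.le
  have h3 : v (σ a⁻¹) < 1 := by
    have : σ a⁻¹ = (σ a⁻¹ - a⁻¹) + a⁻¹ := by ring
    rw [this]; exact v.map_add_lt h2 h1
  rw [map_inv₀] at h3
  exact (v.one_lt_val_iff ((map_ne_zero σ).mpr ha0)).mpr h3

/-- integral points with nonsingular reduction move inside the kernel of reduction. -/
lemma PLocal.integral_case
    (hτx : ∀ P, P ≠ 0 → D.x (τ P) = σ (D.x P)) (hτy : ∀ P, P ≠ 0 → D.y (τ P) = σ (D.y P))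
    (hτ0 : ∀ P, P ≠ 0 → τ P ≠ 0)
    (hσ1 : ∀ a, v a ≤ 1 → v (σ a - a) < 1)
    (h2 : v 2 = 1)
    (hβ : v D.β ≤ 1) (hγ : v D.γ ≤ 1) (hdisc : v (D.β ^ 2 - 4 * D.γ) = 1)
    {T : G} (hT0 : T ≠ 0) (hx : v (D.x T) ≤ 1)
    (hcase : v D.γ = 1 ∨ v (D.x T) = 1) : T = τ T ∨ 1 < v (D.x (T - τ T)) := by
  have hy : v (D.y T) ≤ 1 := val_y_le_one D v hT0 hβ hγ hx
  have hεx : v (σ (D.x T) - D.x T) < 1 := hσ1 _ hx
  have hεy : v (σ (D.y T) - D.y T) < 1 := hσ1 _ hy
  have hxQ : v (D.x (τ T)) ≤ 1 := by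
    rw [hτx T hT0]
    have : σ (D.x T) = (σ (D.x T) - D.x T) + D.x T := by ring
    rw [this]; exact v.map_add_le hεx.le hx
  refine f2 D v h2 hβ hT0 (hτ0 T hT0) hx hxQ ?_ ?_ ?_
  · rw [hτx T hT0, v.map_sub_swap]; exact hεx
  · rw [hτy T hT0, v.map_sub_swap]; exact hεy
  · rw [hτx T hT0, hτy T hT0]
    by_cases hy1 : v (D.y T) < 1
    · right
      have hf := fprime_unit v h2 hβ hdisc hx hy1 (D.eqn T hT0) hcase
      have : D.x T ^ 2 + D.x T * σ (D.x T) + σ (D.x T) ^ 2 + D.β * (D.x T + σ (D.x T)) + D.γ =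
          (3 * D.x T ^ 2 + 2 * D.β * D.x T + D.γ) +
          (σ (D.x T) - D.x T) * (3 * D.x T + (σ (D.x T) - D.x T) + D.β) := by ring
      rw [this]
      apply (v.map_add_eq_of_lt_left _).trans hf
      rw [hf, map_mul]
      have h3 : v (3 * D.x T + (σ (D.x T) - D.x T) + D.β) ≤ 1 := by
        have : 3 * D.x T + (σ (D.x T) - D.x T) + D.β ∈ v.integer := by
          have hxi := mem_int v hx
          have hβi := mem_int v hβ
          have hεi := mem_int v hεx.le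
          clear hf this hdisc hcase hεx hεy hxQ hτx hτy
          generalize σ (D.x T) - D.x T = ε at *
          aesop
        exact le_one_of_mem v this
      calc v (σ (D.x T) - D.x T) * v (3 * D.x T + (σ (D.x T) - D.x T) + D.β)
          ≤ v (σ (D.x T) - D.x T) * 1 := by gcongr
        _ = v (σ (D.x T) - D.x T) := mul_one _
        _ < 1 := hεx
    · left
      have hy1' : v (D.y T) = 1 := le_antisymm hy (not_lt.mp hy1)
      have : D.y T + σ (D.y T) = 2 * D.y T + (σ (D.y T) - D.y T) := by ring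
      rw [this]
      have h2y : v (2 * D.y T) = 1 := by rw [map_mul, h2, hy1', one_mul]
      exact (v.map_add_eq_of_lt_left (by rw [h2y]; exact hεy)).trans h2y

/-- torsion points on a non-identity component move inside the kernel of reduction. -/
lemma PLocal.open_case
    (hτx : ∀ P, P ≠ 0 → D.x (τ P) = σ (D.x P)) (hτy : ∀ P, P ≠ 0 → D.y (τ P) = σ (D.y P))
    (hτ0 : ∀ P, P ≠ 0 → τ P ≠ 0)
    (hσ1 : ∀ a, v a ≤ 1 → v (σ a - a) < 1)
    (h2 : v 2 = 1) {p : ℕ} (hp : p.Prime)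
    (hβ : v D.β = 1)
    {T : G} (hT0 : T ≠ 0) (hγx : v D.γ < v (D.x T)) (hx1 : v (D.x T) < 1)
    {w : K} (hw : σ w = w) (hwγ : v D.γ = v w ^ p)
    {i : ℕ} (hi : v (D.x T) ^ p = v D.γ ^ (2 * i)) : T = τ T ∨ 1 < v (D.x (T - τ T)) := by
  have hxpos : 0 < v (D.x T) := lt_of_le_of_lt zero_le hγx
  have hyx : v (D.y T) = v (D.x T) := val_y_eq_val_x D v hT0 hβ hγx hx1
  have hr : v (D.x T) = v (w ^ (2 * i)) := by
    apply pow_inj_of_ne_zero hp.ne_zero
    rw [hi, hwγ, map_pow, ← pow_mul, ← pow_mul, mul_comm]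
  have hσr : σ (w ^ (2 * i)) = w ^ (2 * i) := by rw [map_pow, hw]
  generalize w ^ (2 * i) = r at hr hσr
  have hr0 : r ≠ 0 := by
    intro h0; rw [h0, map_zero] at hr; rw [hr] at hxpos; exact lt_irrefl _ hxpos
  have key : ∀ a : K, v a = v r → v (σ a - a) < v r := by
    intro a ha
    have hu : v (a / r) ≤ 1 := by rw [map_div₀, ha, div_self (by rw [← hr]; exact hxpos.ne')]
    have h3 := hσ1 (a / r) hu
    have : σ a - a = r * (σ (a / r) - a / r) := by
      rw [map_div₀, hσr]; field_simp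
    rw [this, map_mul]
    calc v r * v (σ (a / r) - a / r) < v r * 1 :=
          mul_lt_mul_of_pos_left h3 (by rw [← hr]; exact hxpos)
      _ = v r := mul_one _
  refine f2_comp D v h2 hβ.le hT0 (hτ0 T hT0) hx1.le hyx ?_ ?_
  · rw [hτx T hT0, v.map_sub_swap, hr]; exact key _ hr
  · rw [hτy T hT0, v.map_sub_swap, hr]; exact key _ (hyx.trans hr)

/-- the double of a torsion point close to the node-side 2-torsion point is not close to it. -/
lemma PLocal.deep_dbl (h2 : v 2 = 1) {p : ℕ} (hp : p.Prime) (hp2 : p ≠ 2)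
    (hβ : v D.β = 1) (hγ : v D.γ < 1) (hγ0 : D.γ ≠ 0)
    {T : G} (hT0 : T ≠ 0) (hT : p • T = 0) (hxγ : v (D.x T) ≤ v D.γ) :
    1 ≤ v (D.x (T + T)) := by
  have hγpos : 0 < v D.γ := v.pos_iff.mpr hγ0
  have hy0 : D.y T ≠ 0 := y_ne_zero_of_torsion D hp hp2 hT0 hT
  have hd := D.dbl_x T hT0 hy0
  have h4 : v (4 : K) = 1 := by
    have : (4 : K) = 2 * 2 := by norm_num
    rw [this, map_mul, h2, one_mul]
  have hnum : v (D.x T ^ 2 - D.γ) = v D.γ := by
    apply v.map_sub_eq_of_lt_right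
    rw [map_pow, sq]
    calc v (D.x T) * v (D.x T) ≤ v D.γ * v D.γ := by gcongr
      _ < v D.γ * 1 := mul_lt_mul_of_pos_left hγ hγpos
      _ = v D.γ := mul_one _
  have hden : v (D.y T) ^ 2 ≤ v D.γ ^ 2 := by
    have e : D.y T ^ 2 = D.x T * (D.x T ^ 2 + D.β * D.x T + D.γ) := by rw [D.eqn T hT0]; ring
    have h3 := congrArg v e
    rw [map_pow, map_mul] at h3
    rw [h3, sq (v D.γ)]
    have h5 : v (D.x T ^ 2 + D.β * D.x T + D.γ) ≤ v D.γ := by
      refine v.map_add_le (v.map_add_le ?_ ?_) le_rfl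
      · rw [map_pow, sq]
        calc v (D.x T) * v (D.x T) ≤ v D.γ * 1 := by gcongr; exact (hxγ.trans hγ.le)
          _ = v D.γ := mul_one _
      · rw [map_mul, hβ, one_mul]; exact hxγ
    gcongr
  have h6 := congrArg v hd
  rw [map_mul, map_mul, h4, one_mul, map_pow, map_pow, hnum] at h6
  by_contra hlt
  rw [not_le] at hlt
  have hypos : 0 < v (D.y T) ^ 2 := pow_pos (v.pos_iff.mpr hy0) 2
  have : v (D.x (T + T)) * v (D.y T) ^ 2 < 1 * v (D.y T) ^ 2 :=
    mul_lt_mul_of_pos_right hlt hypos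
  rw [h6, one_mul] at this
  exact absurd hden (not_le.mpr this)

/-- **Local statement at `p`** (abstract form): an automorphism acting trivially on the residue
field moves every `p`-torsion point by an element of the kernel of reduction.  No hypothesis on
`v p`. -/
theorem PLocal.kummer_inertia
    (hτx : ∀ P, P ≠ 0 → D.x (τ P) = σ (D.x P)) (hτy : ∀ P, P ≠ 0 → D.y (τ P) = σ (D.y P))
    (hτ0 : ∀ P, P ≠ 0 → τ P ≠ 0)
    (hσ1 : ∀ a, v a ≤ 1 → v (σ a - a) < 1)
    (h2 : v 2 = 1) (p : ℕ) (hp : p.Prime) (hp2 : p ≠ 2)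
    (hβ : v D.β ≤ 1) (hγ : v D.γ ≤ 1) (hdisc : v (D.β ^ 2 - 4 * D.γ) = 1) (hγ0 : D.γ ≠ 0)
    (hcase : v D.γ = 1 ∨ (v D.β = 1 ∧ v D.γ < 1 ∧ ∃ w : K, σ w = w ∧ v D.γ = v w ^ p))
    (T : G) (hT : p • T = 0) : τ T - T ∈ PLocal.E1 D v hβ hγ := by
  -- it suffices to produce the `f2`-style alternative
  have conv : ∀ S : G, (S = τ S ∨ 1 < v (D.x (S - τ S))) → τ S - S ∈ PLocal.E1 D v hβ hγ := by
    intro S h
    have h' : S - τ S ∈ PLocal.E1 D v hβ hγ := by
      rcases h with h | h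
      · left; rw [← h, sub_self]
      · exact Or.inr h
    have := (PLocal.E1 D v hβ hγ).neg_mem h'
    rwa [neg_sub] at this
  -- points with `v x ≥ 1`
  have big : ∀ S : G, S ≠ 0 → 1 ≤ v (D.x S) → τ S - S ∈ PLocal.E1 D v hβ hγ := by
    intro S hS0 hS
    rcases lt_or_eq_of_le hS with h | h
    · have h1 : S ∈ PLocal.E1 D v hβ hγ := Or.inr h
      have h2' : τ S ∈ PLocal.E1 D v hβ hγ := by
        right; rw [hτx S hS0]; exact PLocal.sigma_big v σ hσ1 h
      exact (PLocal.E1 D v hβ hγ).sub_mem h2' h1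
    · exact conv S (PLocal.integral_case D v τ σ hτx hτy hτ0 hσ1 h2 hβ hγ hdisc hS0 h.symm.le
        (Or.inr h.symm))
  by_cases hT0 : T = 0
  · rw [hT0, map_zero, sub_self]; exact (PLocal.E1 D v hβ hγ).zero_mem
  rcases le_or_gt 1 (v (D.x T)) with hx | hx
  · exact big T hT0 hx
  rcases hcase with hg | ⟨hβ1, hγ1, w, hw, hwγ⟩
  · exact conv T (PLocal.integral_case D v τ σ hτx hτy hτ0 hσ1 h2 hβ hγ hdisc hT0 hx.le
      (Or.inl hg))
  · rcases lt_or_ge (v D.γ) (v (D.x T)) with hγx | hγx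
    · obtain ⟨i, hi⟩ := ValEnd.torsion_val D v h2 hβ1 hγ1 hγ0 hp hp2 hT0 hT hγx hx
      exact conv T (PLocal.open_case D v τ σ hτx hτy hτ0 hσ1 h2 hp hβ1 hT0 hγx hx hw hwγ hi)
    · -- deep case: pass to `2T`
      have hp3 : 3 ≤ p := by have := hp.two_le; omega
      have h2T0 : T + T ≠ 0 := by
        rw [← two_nsmul]; exact nsmul_ne_zero_of_lt hp hT0 hT (by norm_num) (by omega)
      have hx2 : 1 ≤ v (D.x (T + T)) :=
        PLocal.deep_dbl D v h2 hp hp2 hβ1 hγ1 hγ0 hT0 hT hγx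
      have hmem := big (T + T) h2T0 hx2
      obtain ⟨k, hk⟩ : ∃ k, p = 2 * k + 1 := by
        rcases hp.eq_two_or_odd' with h | h
        · exact absurd h hp2
        · exact h
      have hT' : T = (k + 1) • (T + T) := by
        rw [← two_nsmul, ← mul_nsmul]
        have : 2 * (k + 1) = p + 1 := by omega
        rw [this, add_nsmul, hT, zero_add, one_nsmul]
      have hτT : τ T - T = (k + 1) • (τ (T + T) - (T + T)) := by
        rw [smul_sub, ← map_nsmul, ← hT']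
      rw [hτT]
      exact (PLocal.E1 D v hβ hγ).nsmul_mem hmem _

end group

end Fermat.Agent.S13
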