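import Mathlib
import Fermat.Prelude.Def_FLTPrelim_Ramification
import Fermat.Agent.S05.FreyInst
import Fermat.Agent.S05.Glue
import Fermat.Agent.S13.PLocal
import Fermat.Agent.S13.PDeep

/-!
# S13: the Frey curve at a place above `p`

* `PFrey.E1 P A` : the kernel of reduction (points `0` or with `A.valuation (4 X) > 1`).
* `PFrey.inertia_sub_mem_E1` : inertia at `A ∣ p` moves every `p`-torsion point by an element
  of `E1`.
* `PFrey.not_all_in_E1` : if `E[p]` contains a Galois-stable cyclic subgroup `⟨T⟩` and a point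
  outside it, then `E[p]` is not contained in `E1`.
-/

set_option autoImplicit false

namespace Fermat.Agent.S13

open WeierstrassCurve WeierstrassCurve.Affine WeierstrassCurve.Affine.Point
open Fermat.Agent.S05

local notation "Qb" => AlgebraicClosure ℚ

/-- the Kummer data of the Frey curve relative to the 2-torsion point `(0, 0)`:
`x = 4 X`, `y = 8 Y + 4 X`, `β = b ^ p - a ^ p`, `γ = -(a b) ^ p`. -/
noncomputable def PFrey.kum (P : FreyPackage) : KummerData (P.freyCurve⁄Qb).Point Qb :=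
  FreyInst.kummer (K := Qb) P two_ne_zero 0 (by ring)

theorem PFrey.kum_β (P : FreyPackage) :
    (PFrey.kum P).β = ((P.b ^ P.p - P.a ^ P.p : ℤ) : Qb) := by
  rw [PFrey.kum, FreyInst.kummer_β]
  have : (3 * (0 : ℚ) + (P.b : ℚ) ^ P.p - (P.a : ℚ) ^ P.p) = ((P.b ^ P.p - P.a ^ P.p : ℤ) : ℚ) := by
    push_cast; ring
  rw [this]; simp

theorem PFrey.kum_γ (P : FreyPackage) :
    (PFrey.kum P).γ = ((-(P.a ^ P.p * P.b ^ P.p) : ℤ) : Qb) := by
  rw [PFrey.kum, FreyInst.kummer_γ]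
  have : (3 * (0 : ℚ) ^ 2 + 2 * 0 * ((P.b : ℚ) ^ P.p - (P.a : ℚ) ^ P.p)
      - (P.a : ℚ) ^ P.p * (P.b : ℚ) ^ P.p) = ((-(P.a ^ P.p * P.b ^ P.p) : ℤ) : ℚ) := by
    push_cast; ring
  rw [this]; simp

theorem PFrey.kum_γ_ne_zero (P : FreyPackage) : (PFrey.kum P).γ ≠ 0 := by
  rw [PFrey.kum_γ]
  have : -(P.a ^ P.p * P.b ^ P.p) ≠ 0 :=
    neg_ne_zero.mpr (mul_ne_zero (pow_ne_zero _ P.ha0) (pow_ne_zero _ P.hb0))
  exact_mod_cast this

theorem PFrey.kum_disc_ne_zero (P : FreyPackage) :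
    (PFrey.kum P).β ^ 2 - 4 * (PFrey.kum P).γ ≠ 0 := by
  rw [PFrey.kum_β, PFrey.kum_γ]
  have h : ((P.b ^ P.p - P.a ^ P.p : ℤ) : Qb) ^ 2 - 4 * ((-(P.a ^ P.p * P.b ^ P.p) : ℤ) : Qb) =
      (((P.c ^ P.p) ^ 2 : ℤ) : Qb) := by
    rw [← P.hFLT]; push_cast; ring
  rw [h]
  have : (P.c ^ P.p) ^ 2 ≠ 0 := pow_ne_zero _ (pow_ne_zero _ P.hc0)
  exact_mod_cast this

theorem PFrey.kum_β_le (P : FreyPackage) (A : ValuationSubring Qb) :
    A.valuation (PFrey.kum P).β ≤ 1 := by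
  rw [PFrey.kum_β]; exact val_intCast_le_one A _

theorem PFrey.kum_γ_le (P : FreyPackage) (A : ValuationSubring Qb) :
    A.valuation (PFrey.kum P).γ ≤ 1 := by
  rw [PFrey.kum_γ]; exact val_intCast_le_one A _

/-- the kernel of reduction at `A` (meaningful for `A` over an odd prime). -/
noncomputable def PFrey.E1 (P : FreyPackage) (A : ValuationSubring Qb) :
    AddSubgroup (P.freyCurve⁄Qb).Point :=
  PLocal.E1 (PFrey.kum P) A.valuation (PFrey.kum_β_le P A) (PFrey.kum_γ_le P A)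

theorem PFrey.mem_E1_iff (P : FreyPackage) (A : ValuationSubring Qb)
    (T : (P.freyCurve⁄Qb).Point) :
    T ∈ PFrey.E1 P A ↔ T = 0 ∨ 1 < A.valuation ((PFrey.kum P).x T) := Iff.rfl

theorem PFrey.kum_x_some (P : FreyPackage) (x y : Qb) (h : (P.freyCurve⁄Qb).Nonsingular x y) :
    (PFrey.kum P).x (Point.some x y h) = 4 * x := by
  show 4 * x - algebraMap ℚ Qb 0 = 4 * x
  rw [_root_.map_zero, sub_zero]

/-- membership in `E1` in raw affine coordinates. -/
theorem PFrey.some_mem_E1_iff (P : FreyPackage) (A : ValuationSubring Qb) (x y : Qb)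
    (h : (P.freyCurve⁄Qb).Nonsingular x y) :
    Point.some x y h ∈ PFrey.E1 P A ↔ 1 < A.valuation (4 * x) := by
  rw [PFrey.mem_E1_iff, PFrey.kum_x_some]
  constructor
  · rintro (h0 | h1)
    · exact absurd h0 (by simp)
    · exact h1
  · exact Or.inr

/-- the shift `e` of a rational 2-torsion abscissa is integral. -/
theorem PFrey.val_e_le (P : FreyPackage) (A : ValuationSubring Qb) (e : ℚ)
    (he : e * (e - (P.a : ℚ) ^ P.p) * (e + (P.b : ℚ) ^ P.p) = 0) :
    A.valuation (algebraMap ℚ Qb e) ≤ 1 := by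
  rcases mul_eq_zero.mp he with h | h
  · rcases mul_eq_zero.mp h with h | h
    · rw [h, _root_.map_zero]; exact zero_le
    · have h' : e = ((P.a ^ P.p : ℤ) : ℚ) := by push_cast; linarith
      rw [Glue.val_algebraMap_int A _ _ h']; exact val_intCast_le_one A _
  · have h' : e = ((-(P.b ^ P.p) : ℤ) : ℚ) := by push_cast; linarith
    rw [Glue.val_algebraMap_int A _ _ h']; exact val_intCast_le_one A _

/-- the kernel of reduction does not depend on the chosen 2-torsion abscissa. -/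
theorem PFrey.transfer (P : FreyPackage) (A : ValuationSubring Qb) (e : ℚ)
    (he : e * (e - (P.a : ℚ) ^ P.p) * (e + (P.b : ℚ) ^ P.p) = 0)
    (hβ : A.valuation (FreyInst.kummer (K := Qb) P two_ne_zero e he).β ≤ 1)
    (hγ : A.valuation (FreyInst.kummer (K := Qb) P two_ne_zero e he).γ ≤ 1)
    (T : (P.freyCurve⁄Qb).Point)
    (h : T ∈ PLocal.E1 (FreyInst.kummer (K := Qb) P two_ne_zero e he) A.valuation hβ hγ) :
    T ∈ PFrey.E1 P A := by
  rcases h with h0 | h1
  · exact Or.inl h0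
  · rcases T with _ | ⟨X, Y, hXY⟩
    · exact Or.inl rfl
    · right
      rw [PFrey.kum_x_some]
      have h1' : 1 < A.valuation (4 * X - algebraMap ℚ Qb e) := h1
      have hev := PFrey.val_e_le P A e he
      have : (4 * X : Qb) = (4 * X - algebraMap ℚ Qb e) + algebraMap ℚ Qb e := by ring
      rw [this, A.valuation.map_add_eq_of_lt_left (lt_of_le_of_lt hev h1')]
      exact h1'

theorem PFrey.val_two (P : FreyPackage) (A : ValuationSubring Qb) (hA : A.LiesOverPrime P.p) :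
    A.valuation (2 : Qb) = 1 := by
  have hp2 : P.p ≠ 2 := by have := P.hp5; omega
  have := (val_intCast_eq_one_iff A P.pp hA 2).mpr (by
    intro h
    have h1 : (P.p : ℤ) ∣ ((2 : ℕ) : ℤ) := by exact_mod_cast h
    rw [Int.natCast_dvd_natCast] at h1
    exact hp2 ((Nat.prime_dvd_prime_iff_eq P.pp Nat.prime_two).mp h1))
  simpa using this

/-- **(pa)** inertia at a place above `p` moves every `p`-torsion point of the Frey curve by an
element of the kernel of reduction. -/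
theorem PFrey.inertia_sub_mem_E1 (P : FreyPackage) (A : ValuationSubring Qb)
    (hA : A.LiesOverPrime P.p) (σ : Qb ≃ₐ[ℚ] Qb) (hσ : σ ∈ A.inertiaSubgroupIn ℚ)
    (T : (P.freyCurve⁄Qb).Point) (hT : P.p • T = 0) : σ • T - T ∈ PFrey.E1 P A := by
  have hp2 : P.p ≠ 2 := by have := P.hp5; omega
  obtain ⟨e, w, he, hβ, hγ, hdisc, hγ0, hcase⟩ := frey_case P P.pp hp2 A hA
  have h2K : (2 : Qb) ≠ 0 := two_ne_zero
  have hv2 : A.valuation (2 : Qb) = 1 := PFrey.val_two P A hA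
  have hγ0' : (FreyInst.kummer (K := Qb) P h2K e he).γ ≠ 0 := by
    rw [FreyInst.kummer_γ]; exact (map_ne_zero _).mpr hγ0
  have key := PLocal.kummer_inertia (FreyInst.kummer (K := Qb) P h2K e he)
    A.valuation (FreyKummer.galAddHom σ) (σ : Qb →+* Qb)
    (fun Q _ => FreyInst.kummer_x_smul P h2K e he σ Q)
    (fun Q _ => FreyInst.kummer_y_smul P h2K e he σ Q)
    (fun Q hQ => (PointAlg.smul_ne_zero_iff σ Q).mpr hQ)
    (fun a ha => inertia_sub_lt A σ hσ a ha)
    hv2 P.p P.pp hp2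
    (by rw [FreyInst.kummer_β]; exact hβ)
    (by rw [FreyInst.kummer_γ]; exact hγ)
    (by rw [FreyInst.kummer_β, FreyInst.kummer_γ]; simpa using hdisc)
    hγ0'
    (by
      rw [FreyInst.kummer_β, FreyInst.kummer_γ]
      rcases hcase with h | ⟨h1, h2, h3⟩
      · exact Or.inl h
      · exact Or.inr ⟨h1, h2, algebraMap ℚ _ w, σ.commutes w, h3⟩)
    T hT
  exact PFrey.transfer P A e he _ _ _ key

/-! ### (pdeep) -/

theorem PFrey.disc_ne_zero (P : FreyPackage) : (P.freyCurve⁄Qb).Δ ≠ 0 := by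
  have h1 : (P.freyCurve⁄Qb).Δ = algebraMap ℚ Qb P.freyCurve.Δ := WeierstrassCurve.map_Δ _ _
  have hF : (P.c : ℚ) ^ P.p = (P.a : ℚ) ^ P.p + (P.b : ℚ) ^ P.p := by
    exact_mod_cast P.hFLT.symm
  have h2 : P.freyCurve.Δ = ((P.a : ℚ) ^ P.p * (P.b : ℚ) ^ P.p * (P.c : ℚ) ^ P.p) ^ 2 / 256 := by
    rw [hF]
    simp only [WeierstrassCurve.Δ, WeierstrassCurve.b₂, WeierstrassCurve.b₄, WeierstrassCurve.b₆,
      WeierstrassCurve.b₈, FreyPackage.freyCurve]
    ring
  rw [h1, h2]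
  apply (map_ne_zero _).mpr
  have ha : (P.a : ℚ) ≠ 0 := by exact_mod_cast P.ha0
  have hb : (P.b : ℚ) ≠ 0 := by exact_mod_cast P.hb0
  have hc : (P.c : ℚ) ≠ 0 := by exact_mod_cast P.hc0
  positivity

/-- every element of `Qb` is the `x`-coordinate (in the Kummer model) of a nonzero point. -/
theorem PFrey.exists_point (P : FreyPackage) (x₀ : Qb) :
    ∃ Q : (P.freyCurve⁄Qb).Point, Q ≠ 0 ∧ (PFrey.kum P).x Q = x₀ := by
  set E := (P.freyCurve⁄Qb) with hE
  set X : Qb := x₀ / 4 with hX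
  have hpoly : ∃ y : Qb, y ^ 2 + (E.a₁ * X + E.a₃) * y
      - (X ^ 3 + E.a₂ * X ^ 2 + E.a₄ * X + E.a₆) = 0 := by
    have hdeg : (Polynomial.X ^ 2 + Polynomial.C (E.a₁ * X + E.a₃) * Polynomial.X
        - Polynomial.C (X ^ 3 + E.a₂ * X ^ 2 + E.a₄ * X + E.a₆) : Polynomial Qb).degree ≠ 0 := by
      have : (Polynomial.X ^ 2 + Polynomial.C (E.a₁ * X + E.a₃) * Polynomial.X
          - Polynomial.C (X ^ 3 + E.a₂ * X ^ 2 + E.a₄ * X + E.a₆) : Polynomial Qb).degree = 2 := by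
        compute_degree!
      rw [this]; norm_num
    obtain ⟨y, hy⟩ := IsAlgClosed.exists_root _ hdeg
    refine ⟨y, ?_⟩
    simpa only [Polynomial.IsRoot, Polynomial.eval_add, Polynomial.eval_sub, Polynomial.eval_mul,
      Polynomial.eval_C, Polynomial.eval_pow, Polynomial.eval_X] using hy
  obtain ⟨y, hy⟩ := hpoly
  have hns : E.Nonsingular X y := by
    refine (equation_iff_nonsingular_of_Δ_ne_zero (PFrey.disc_ne_zero P)).mp ?_
    rw [equation_iff]
    linear_combination hy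
  refine ⟨Point.some X y hns, by simp, ?_⟩
  rw [PFrey.kum_x_some, hX]
  ring

theorem PFrey.galois_fixed_rat (z : Qb) (hz : ∀ σ : Qb ≃ₐ[ℚ] Qb, σ z = z) :
    ∃ q : ℚ, algebraMap ℚ Qb q = z := by
  have hG : IsGalois ℚ Qb := by
    have h : (DivisionRing.toRatAlgebra : Algebra ℚ Qb) = AlgebraicClosure.instAlgebra ℚ :=
      Subsingleton.elim _ _
    rw [h]
    infer_instance
  exact (InfiniteGalois.mem_range_algebraMap_iff_fixed (k := ℚ) (K := Qb) z).mpr hz

/-- a rational number of valuation `> 1` at a place over `ℓ` has valuation at least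
`1 / v ℓ`. -/
theorem PFrey.val_rat_big (A : ValuationSubring Qb) {ℓ : ℕ} (hℓ : ℓ.Prime)
    (hA : A.LiesOverPrime ℓ) (q : ℚ) (hq : 1 < A.valuation (algebraMap ℚ Qb q)) :
    1 ≤ A.valuation (ℓ : Qb) * A.valuation (algebraMap ℚ Qb q) := by
  have hq' : algebraMap ℚ Qb q = (q.num : Qb) / (q.den : Qb) := by
    conv_lhs => rw [← Rat.num_div_den q]
    simp
  have hden0 : ((q.den : ℕ) : Qb) ≠ 0 := Nat.cast_ne_zero.mpr q.den_ne_zero
  have hdenpos : 0 < A.valuation ((q.den : ℕ) : Qb) := A.valuation.pos_iff.mpr hden0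
  rw [hq', map_div₀] at hq ⊢
  have hnum : A.valuation (q.num : Qb) ≤ 1 := val_intCast_le_one A _
  have hlt : A.valuation ((q.den : ℕ) : Qb) < A.valuation (q.num : Qb) := by
    rwa [one_lt_div₀ hdenpos] at hq
  have hden1 : A.valuation (((q.den : ℕ) : ℤ) : Qb) < 1 := by
    push_cast; exact lt_of_lt_of_le hlt hnum
  have hdvd : (ℓ : ℤ) ∣ ((q.den : ℕ) : ℤ) := (Glue.val_intCast_lt_one_iff A hℓ hA _).mp hden1
  have hndvd : ¬ (ℓ : ℤ) ∣ q.num := by
    intro h
    have h1 : ℓ ∣ q.num.natAbs := Int.natCast_dvd.mp h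
    have h2 : ℓ ∣ q.den := Int.natCast_dvd_natCast.mp hdvd
    have := Nat.dvd_gcd h1 h2
    rw [q.reduced] at this
    exact hℓ.one_lt.ne' (Nat.dvd_one.mp this)
  have hnum1 : A.valuation (q.num : Qb) = 1 := (val_intCast_eq_one_iff A hℓ hA _).mpr hndvd
  obtain ⟨d, hd⟩ := hdvd
  have hdenle : A.valuation ((q.den : ℕ) : Qb) ≤ A.valuation (ℓ : Qb) := by
    have : ((q.den : ℕ) : Qb) = (ℓ : Qb) * (d : Qb) := by
      have := congrArg (fun n : ℤ => (n : Qb)) hd
      simpa using this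
    rw [this, map_mul]
    calc A.valuation (ℓ : Qb) * A.valuation (d : Qb) ≤ A.valuation (ℓ : Qb) * 1 :=
          mul_le_mul' le_rfl (val_intCast_le_one A d)
      _ = A.valuation (ℓ : Qb) := mul_one _
  rw [hnum1, one_div]
  calc (1 : A.ValueGroup) = A.valuation ((q.den : ℕ) : Qb) * (A.valuation ((q.den : ℕ) : Qb))⁻¹ :=
        (mul_inv_cancel₀ hdenpos.ne').symm
    _ ≤ A.valuation (ℓ : Qb) * (A.valuation ((q.den : ℕ) : Qb))⁻¹ := mul_le_mul' hdenle le_rfl

theorem PFrey.kum_x_smul (P : FreyPackage) (σ : Qb ≃ₐ[ℚ] Qb) (T : (P.freyCurve⁄Qb).Point) :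
    (PFrey.kum P).x (σ • T) = σ ((PFrey.kum P).x T) :=
  FreyInst.kummer_x_smul P two_ne_zero 0 (by ring) σ T

theorem PFrey.smul_nsmul (P : FreyPackage) (σ : Qb ≃ₐ[ℚ] Qb) (j : ℕ)
    (T : (P.freyCurve⁄Qb).Point) : σ • (j • T) = j • (σ • T) :=
  map_nsmul (FreyKummer.galAddHom (W' := P.freyCurve) σ) j T

/-- the set of `x`-coordinates of the nonzero multiples of a point `T` of order `p = 2 m + 1`
spanning a Galois-stable subgroup is Galois-stable. -/
theorem PFrey.xset_stable (P : FreyPackage) (m : ℕ) (hm : P.p = 2 * m + 1)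
    (T : (P.freyCurve⁄Qb).Point) (hT0 : T ≠ 0) (hT : P.p • T = 0)
    (hstab : ∀ σ : Qb ≃ₐ[ℚ] Qb, ∃ k : ℕ, σ • T = k • T) (σ : Qb ≃ₐ[ℚ] Qb) :
    ((Finset.Icc 1 m).image (fun j => (PFrey.kum P).x (j • T))).image σ =
      (Finset.Icc 1 m).image (fun j => (PFrey.kum P).x (j • T)) := by
  apply Finset.eq_of_subset_of_card_le
  · intro s hs
    obtain ⟨s', hs', rfl⟩ := Finset.mem_image.mp hs
    obtain ⟨j, hj, rfl⟩ := Finset.mem_image.mp hs'
    rw [Finset.mem_Icc] at hj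
    obtain ⟨k, hk⟩ := hstab σ
    have hjT0 : j • T ≠ 0 := nsmul_ne_zero_of_lt P.pp hT0 hT (by omega) (by omega)
    have h1 : σ ((PFrey.kum P).x (j • T)) = (PFrey.kum P).x ((j * k) • T) := by
      rw [← PFrey.kum_x_smul, PFrey.smul_nsmul, hk, ← mul_nsmul']
    have hmod : (j * k) • T = ((j * k) % P.p) • T := by
      conv_lhs => rw [← Nat.mod_add_div (j * k) P.p]
      rw [add_nsmul, mul_nsmul, hT, nsmul_zero, add_zero]
    have hr0 : (j * k) % P.p ≠ 0 := by
      intro h0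
      rw [h0, zero_nsmul] at hmod
      have h2 : σ • (j • T) = 0 := by rw [PFrey.smul_nsmul, hk, ← mul_nsmul', hmod]
      exact hjT0 ((PointAlg.smul_eq_zero_iff σ (j • T)).mp h2)
    have hrp : (j * k) % P.p < P.p := Nat.mod_lt _ P.hppos
    rw [h1, hmod]
    generalize (j * k) % P.p = r at hr0 hrp
    rcases le_or_gt r m with hrm | hrm
    · exact Finset.mem_image.mpr ⟨r, Finset.mem_Icc.mpr ⟨by omega, hrm⟩, rfl⟩
    · refine Finset.mem_image.mpr ⟨P.p - r, Finset.mem_Icc.mpr ⟨by omega, by omega⟩, ?_⟩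
      have h3 : (P.p - r) • T = -(r • T) := by
        rw [eq_neg_iff_add_eq_zero, ← add_nsmul]
        have : P.p - r + r = P.p := by omega
        rw [this, hT]
      show (PFrey.kum P).x ((P.p - r) • T) = (PFrey.kum P).x (r • T)
      rw [h3, (PFrey.kum P).x_neg]
  · rw [Finset.card_image_of_injective _ σ.injective]

/-- **(pdeep), strong form.**  Let `⟨T⟩` be a Galois-stable cyclic subgroup of order `p` of
the Frey curve contained in the kernel of reduction `E1` at a place above `p`.  Then every point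
of `E[p] ∩ E1` is a multiple of `T`. -/
theorem PFrey.exists_nsmul_of_mem_E1 (P : FreyPackage) (A : ValuationSubring Qb)
    (hA : A.LiesOverPrime P.p) (T S : (P.freyCurve⁄Qb).Point) (hT0 : T ≠ 0) (hT : P.p • T = 0)
    (hTE : T ∈ PFrey.E1 P A)
    (hstab : ∀ σ : Qb ≃ₐ[ℚ] Qb, ∃ k : ℕ, σ • T = k • T)
    (hS : P.p • S = 0) (hSE : S ∈ PFrey.E1 P A) : ∃ k : ℕ, S = k • T := by
  by_contra hcon
  push Not at hcon
  have hSk : ∀ k : ℕ, S ≠ k • T := hcon
  obtain ⟨m, hm⟩ : ∃ m, P.p = 2 * m + 1 := P.hp_odd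
  have hm1 : 1 ≤ m := by have := P.hp5; omega
  have hS0 : S ≠ 0 := by
    intro h; exact hSk 0 (by rw [h, zero_nsmul])
  have hSbig : 1 < A.valuation ((PFrey.kum P).x S) :=
    ((PFrey.mem_E1_iff P A S).mp hSE).resolve_left hS0
  have hjT : ∀ j ∈ Finset.Icc 1 m, j • T ≠ 0 ∧ (2 * m + 1) • (j • T) = 0 ∧
      1 < A.valuation ((PFrey.kum P).x (j • T)) := by
    intro j hj
    rw [Finset.mem_Icc] at hj
    have h0 : j • T ≠ 0 := nsmul_ne_zero_of_lt P.pp hT0 hT (by omega) (by omega)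
    refine ⟨h0, ?_, ?_⟩
    · rw [← hm, nsmul_left_comm, hT, nsmul_zero]
    · exact ((PFrey.mem_E1_iff P A _).mp ((PFrey.E1 P A).nsmul_mem hTE j)).resolve_left h0
  set XL := (Finset.Icc 1 m).image (fun j => (PFrey.kum P).x (j • T)) with hXL
  have hXLbig : ∀ s ∈ XL, 1 < A.valuation s := by
    intro s hs
    obtain ⟨j, hj, rfl⟩ := Finset.mem_image.mp hs
    exact (hjT j hj).2.2
  -- the product of `XL` is rational
  obtain ⟨q, hq⟩ := PFrey.galois_fixed_rat (∏ s ∈ XL, s) (by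
    intro σ
    have hst := PFrey.xset_stable P m hm T hT0 hT hstab σ
    rw [← hXL] at hst
    rw [map_prod]
    conv_rhs => rw [← hst]
    rw [Finset.prod_image (fun a _ b _ h => σ.injective h)])
  have hPibig : 1 < A.valuation (∏ s ∈ XL, s) := by
    rw [map_prod]
    have hmem : (PFrey.kum P).x ((1 : ℕ) • T) ∈ XL :=
      Finset.mem_image.mpr ⟨1, Finset.mem_Icc.mpr ⟨le_rfl, hm1⟩, rfl⟩
    rw [← Finset.mul_prod_erase XL _ hmem]
    have h1 := hXLbig _ hmem
    have h2 : 1 ≤ ∏ s ∈ XL.erase ((PFrey.kum P).x ((1 : ℕ) • T)), A.valuation s :=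
      Finset.one_le_prod' (fun s hs => (hXLbig s (Finset.mem_of_mem_erase hs)).le)
    calc (1 : A.ValueGroup) < A.valuation ((PFrey.kum P).x ((1 : ℕ) • T)) := h1
      _ = A.valuation ((PFrey.kum P).x ((1 : ℕ) • T)) * 1 := (mul_one _).symm
      _ ≤ A.valuation ((PFrey.kum P).x ((1 : ℕ) • T)) *
          ∏ s ∈ XL.erase ((PFrey.kum P).x ((1 : ℕ) • T)), A.valuation s :=
        mul_le_mul' le_rfl h2
  have hPi : 1 ≤ A.valuation (P.p : Qb) * A.valuation (∏ s ∈ XL, s) := by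
    rw [← hq] at hPibig ⊢
    exact PFrey.val_rat_big A P.pp hA q hPibig
  -- the family of distinct roots
  have hnot : ((PFrey.kum P).x S)⁻¹ ∉ XL.image (fun s => s⁻¹) := by
    intro h
    obtain ⟨s, hs, hs'⟩ := Finset.mem_image.mp h
    obtain ⟨j, hj, rfl⟩ := Finset.mem_image.mp hs
    have hxx : (PFrey.kum P).x (j • T) = (PFrey.kum P).x S := inv_injective hs'
    rcases (PFrey.kum P).eq_or_eq_neg_of_x_eq hS0 (hjT j hj).1 hxx.symm with h1 | h1
    · exact hSk j h1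
    · rw [Finset.mem_Icc] at hj
      apply hSk (P.p - j)
      rw [h1, eq_comm, eq_neg_iff_add_eq_zero, ← add_nsmul]
      have : P.p - j + j = P.p := by omega
      rw [this, hT]
  have hpK : ((2 * m + 1 : ℕ) : Qb) ≠ 0 := Nat.cast_ne_zero.mpr (by omega)
  have hmain := PDeep.strong (PFrey.kum P) A.valuation _ _ (PFrey.kum_β P) (PFrey.kum_γ P)
    two_ne_zero (PFrey.kum_γ_ne_zero P) (PFrey.kum_disc_ne_zero P) m hpK
    (insert ((PFrey.kum P).x S)⁻¹ (XL.image (fun s => s⁻¹))) (by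
      intro r hr
      rcases Finset.mem_insert.mp hr with rfl | hr
      · exact ⟨S, hS0, by rw [← hm]; exact hS, hSbig, (inv_inv _).symm⟩
      · obtain ⟨s, hs, rfl⟩ := Finset.mem_image.mp hr
        obtain ⟨j, hj, rfl⟩ := Finset.mem_image.mp hs
        exact ⟨j • T, (hjT j hj).1, (hjT j hj).2.1, (hjT j hj).2.2, (inv_inv _).symm⟩)
  rw [Finset.prod_insert hnot, Finset.prod_image (fun a _ b _ h => inv_injective h)] at hmain
  have hSinv : A.valuation ((PFrey.kum P).x S)⁻¹ < 1 := val_inv_lt_one _ hSbig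
  have hprodinv : ∏ s ∈ XL, A.valuation s⁻¹ = (A.valuation (∏ s ∈ XL, s))⁻¹ := by
    rw [map_prod, ← Finset.prod_inv_distrib]
    exact Finset.prod_congr rfl (fun s _ => map_inv₀ _ _)
  rw [hprodinv, ← hm] at hmain
  have hPipos : 0 < A.valuation (∏ s ∈ XL, s) := lt_trans zero_lt_one hPibig
  have hinv_le : (A.valuation (∏ s ∈ XL, s))⁻¹ ≤ A.valuation (P.p : Qb) := by
    calc (A.valuation (∏ s ∈ XL, s))⁻¹ = 1 * (A.valuation (∏ s ∈ XL, s))⁻¹ := (one_mul _).symm
      _ ≤ A.valuation (P.p : Qb) * A.valuation (∏ s ∈ XL, s) * (A.valuation (∏ s ∈ XL, s))⁻¹ :=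
        mul_le_mul' hPi le_rfl
      _ = A.valuation (P.p : Qb) := by rw [mul_assoc, mul_inv_cancel₀ hPipos.ne', mul_one]
  have hlt : A.valuation ((PFrey.kum P).x S)⁻¹ * (A.valuation (∏ s ∈ XL, s))⁻¹ <
      A.valuation (P.p : Qb) := by
    calc A.valuation ((PFrey.kum P).x S)⁻¹ * (A.valuation (∏ s ∈ XL, s))⁻¹
        < 1 * (A.valuation (∏ s ∈ XL, s))⁻¹ :=
          mul_lt_mul_of_pos_right hSinv (inv_pos.mpr hPipos)
      _ = (A.valuation (∏ s ∈ XL, s))⁻¹ := one_mul _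
      _ ≤ A.valuation (P.p : Qb) := hinv_le
  exact absurd hmain (not_le.mpr hlt)

/-- **(pdeep)** If the `p`-torsion of the Frey curve contains a Galois-stable cyclic subgroup
`⟨T⟩` of order `p` and a point `S` outside it, then it is not contained in the kernel of
reduction at a place above `p`. -/
theorem PFrey.not_all_in_E1 (P : FreyPackage) (A : ValuationSubring Qb)
    (hA : A.LiesOverPrime P.p) (T S : (P.freyCurve⁄Qb).Point) (hT0 : T ≠ 0) (hT : P.p • T = 0)
    (hstab : ∀ σ : Qb ≃ₐ[ℚ] Qb, ∃ k : ℕ, σ • T = k • T)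
    (hS : P.p • S = 0) (hSk : ∀ k : ℕ, S ≠ k • T) :
    ∃ R : (P.freyCurve⁄Qb).Point, P.p • R = 0 ∧ R ∉ PFrey.E1 P A := by
  by_contra hcon
  push Not at hcon
  obtain ⟨k, hk⟩ := PFrey.exists_nsmul_of_mem_E1 P A hA T S hT0 hT (hcon T hT) hstab hS
    (hcon S hS)
  exact hSk k hk

/-! ### The `[Tp]` statement in the `ZMod p`-module language -/

section modlang

/-- the underlying point of a scalar multiple in `E[p]`. -/
theorem PFrey.coe_zmod_smul (P : FreyPackage) (c : ZMod P.p)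
    (y : Submodule.torsionBy ℤ (P.freyCurve⁄Qb).Point P.p) :
    ((c • y : Submodule.torsionBy ℤ (P.freyCurve⁄Qb).Point P.p) : (P.freyCurve⁄Qb).Point) =
      c.val • (y : (P.freyCurve⁄Qb).Point) := by
  have : NeZero P.p := ⟨P.hp0⟩
  have h1 : c • y = c.val • y := by
    conv_lhs => rw [← ZMod.natCast_zmod_val c]
    exact Nat.cast_smul_eq_nsmul (ZMod P.p) c.val y
  rw [h1]
  rfl

theorem PFrey.torsion_of_mem (P : FreyPackage)
    (y : Submodule.torsionBy ℤ (P.freyCurve⁄Qb).Point P.p) :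
    P.p • (y : (P.freyCurve⁄Qb).Point) = 0 := by
  have hx : (P.p : ℤ) • (y : (P.freyCurve⁄Qb).Point) = 0 :=
    (Submodule.mem_torsionBy_iff _ _).mp y.2
  rwa [natCast_zsmul] at hx

/-- **`[Tp]`, every place.**  For every place `A` above `p` and every Galois-stable line `L` of
`E[p]` of the Frey curve, the inertia group at `A` acts trivially on `L` or on `E[p] / L`. -/
theorem PFrey.local_at_p_of (P : FreyPackage) (A : ValuationSubring Qb)
    (hA : A.LiesOverPrime P.p)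
    (L : Submodule (ZMod P.p) (Submodule.torsionBy ℤ (P.freyCurve⁄Qb).Point P.p))
    (hL : IsGaloisStable ℚ L) (hL1 : Module.finrank (ZMod P.p) L = 1) :
    (∀ σ ∈ A.inertiaSubgroupIn ℚ, ∀ x ∈ L, σ • x = x) ∨
    (∀ σ ∈ A.inertiaSubgroupIn ℚ,
      ∀ x : Submodule.torsionBy ℤ (P.freyCurve⁄Qb).Point P.p, σ • x - x ∈ L) := by
  have : Fact P.p.Prime := ⟨P.pp⟩
  obtain ⟨t, ht0, ht⟩ := finrank_eq_one_iff'.mp hL1
  have htL : (t : Submodule.torsionBy ℤ (P.freyCurve⁄Qb).Point P.p) ∈ L := t.2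
  -- every element of `L` is a multiple of `t`
  have hgen : ∀ x ∈ L, ∃ c : ZMod P.p,
      x = c • (t : Submodule.torsionBy ℤ (P.freyCurve⁄Qb).Point P.p) := by
    intro x hx
    obtain ⟨c, hc⟩ := ht ⟨x, hx⟩
    exact ⟨c, by rw [← Submodule.coe_smul, hc]⟩
  set T : (P.freyCurve⁄Qb).Point :=
    ((t : Submodule.torsionBy ℤ (P.freyCurve⁄Qb).Point P.p) : (P.freyCurve⁄Qb).Point) with hTdef
  have hT0 : T ≠ 0 := by
    intro h
    apply ht0
    apply Subtype.ext
    apply Subtype.ext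
    exact h
  have hT : P.p • T = 0 := PFrey.torsion_of_mem P _
  have hstab : ∀ σ : Qb ≃ₐ[ℚ] Qb, ∃ k : ℕ, σ • T = k • T := by
    intro σ
    obtain ⟨c, hc⟩ := hgen _ (hL σ _ htL)
    refine ⟨c.val, ?_⟩
    have := congrArg (fun y : Submodule.torsionBy ℤ (P.freyCurve⁄Qb).Point P.p =>
      (y : (P.freyCurve⁄Qb).Point)) hc
    simp only [PFrey.coe_zmod_smul] at this
    exact this
  by_cases hTE : T ∈ PFrey.E1 P A
  · right
    intro σ hσ x
    have hmem : σ • (x : (P.freyCurve⁄Qb).Point) - (x : (P.freyCurve⁄Qb).Point) ∈ PFrey.E1 P A :=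
      PFrey.inertia_sub_mem_E1 P A hA σ hσ _ (PFrey.torsion_of_mem P x)
    have htors : P.p • (σ • (x : (P.freyCurve⁄Qb).Point) - (x : (P.freyCurve⁄Qb).Point)) = 0 :=
      PFrey.torsion_of_mem P (σ • x - x)
    obtain ⟨k, hk⟩ := PFrey.exists_nsmul_of_mem_E1 P A hA T _ hT0 hT hTE hstab htors hmem
    have hx : σ • x - x = k • (t : Submodule.torsionBy ℤ (P.freyCurve⁄Qb).Point P.p) :=
      Subtype.ext hk
    rw [hx, ← Nat.cast_smul_eq_nsmul (ZMod P.p)]
    exact L.smul_mem _ htL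
  · left
    intro σ hσ x hx
    have hyL : σ • x - x ∈ L := L.sub_mem (hL σ x hx) hx
    obtain ⟨c, hc⟩ := hgen _ hyL
    have hmem : σ • (x : (P.freyCurve⁄Qb).Point) - (x : (P.freyCurve⁄Qb).Point) ∈ PFrey.E1 P A :=
      PFrey.inertia_sub_mem_E1 P A hA σ hσ _ (PFrey.torsion_of_mem P x)
    by_cases hc0 : c = 0
    · rw [hc0, zero_smul] at hc
      exact sub_eq_zero.mp hc
    · exfalso
      apply hTE
      have ht' : (t : Submodule.torsionBy ℤ (P.freyCurve⁄Qb).Point P.p) = c⁻¹ • (σ • x - x) := by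
        rw [hc, smul_smul, inv_mul_cancel₀ hc0, one_smul]
      have := congrArg (fun y : Submodule.torsionBy ℤ (P.freyCurve⁄Qb).Point P.p =>
        (y : (P.freyCurve⁄Qb).Point)) ht'
      simp only [PFrey.coe_zmod_smul] at this
      rw [hTdef, this]
      exact (PFrey.E1 P A).nsmul_mem hmem _

end modlang

end Fermat.Agent.S13
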