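/-
S13 ASSEMBLY (helper50, S13 lead): the global argument.

`result_of_parts` derives the frozen S13 statement from
  * [T0]  `finrank E[p] = 2`            -- landed `Lib/TorsionCard` (helper62)
  * [Tp]  local analysis at `p`         -- landed `S13/PFrey` (helper65): `local_at_p` below
  * S05   unramified outside `2p`       -- landed
and three HYPOTHESES (packages still in flight; this file is complete):
  * `hT2a` inertia at `2` acts unipotently on `E[p]`           ([T2], `LocalTwo.inertia_unipotent_torsionBy`)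
  * `hT2b` no nonzero Galois-fixed point in `E[p]`              ([T2], `LocalTwo.eq_zero_of_fixed_torsionBy`)
  * `hTM`  Minkowski glue for normal subgroups of finite level  ([TM])
-/
import Fermat.Statements.S13
import Fermat.Agent.S05
import Fermat.Agent.Lib.FrobExists
import Fermat.Agent.Lib.TorsionCard
import Fermat.Agent.S13.PFrey

set_option autoImplicit false
open WeierstrassCurve WeierstrassCurve.Affine WeierstrassCurve.Affine.Point
open FreyPackage

namespace Fermat.Agent.S13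

open Module

/-- the ambient field -/
abbrev Qb : Type := AlgebraicClosure ℚ

/-- the absolute Galois group -/
abbrev Gal : Type := Qb ≃ₐ[ℚ] Qb

/-- `E[p](Qbar)` for the Frey curve, with its `ZMod p`-module structure and Galois action
(both from the Prelude). -/
abbrev V (P : FreyPackage) : Type :=
  Submodule.torsionBy ℤ (P.freyCurve⁄Qb).Point P.p

/-- [T0] `E[p](Qbar)` is two-dimensional. -/
theorem finrank_torsion (P : FreyPackage) : Module.finrank (ZMod P.p) (V P) = 2 := by
  have : Fact P.p.Prime := ⟨P.pp⟩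
  exact Fermat.Agent.Lib.TorsionCard.finrank_torsionBy_prime (P.freyCurve⁄Qb)
    (PFrey.disc_ne_zero P) P.p

/-- The Galois action commutes with `ZMod p`-scalars. -/
theorem gal_smul_zmod_smul (P : FreyPackage) (σ : Gal) (c : ZMod P.p) (x : V P) :
    σ • (c • x) = c • (σ • x) := by
  have : NeZero P.p := ⟨P.hp0⟩
  obtain ⟨n, rfl⟩ : ∃ n : ℕ, (n : ZMod P.p) = c := ⟨c.val, ZMod.natCast_zmod_val c⟩
  rw [Nat.cast_smul_eq_nsmul, Nat.cast_smul_eq_nsmul]
  exact map_nsmul (DistribSMul.toAddMonoidHom (V P) σ) n x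

/-- The pointwise stabiliser of a submodule. -/
def fixSub (P : FreyPackage) (L : Submodule (ZMod P.p) (V P)) : Subgroup Gal where
  carrier := {σ | ∀ x ∈ L, σ • x = x}
  one_mem' := fun x _ => one_smul _ x
  mul_mem' := fun {a b} ha hb x hx => by rw [mul_smul, hb x hx, ha x hx]
  inv_mem' := fun {a} ha x hx => by rw [inv_smul_eq_iff]; exact (ha x hx).symm

theorem mem_fixSub (P : FreyPackage) (L : Submodule (ZMod P.p) (V P)) (σ : Gal) :
    σ ∈ fixSub P L ↔ ∀ x ∈ L, σ • x = x := Iff.rfl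

theorem fixSub_normal (P : FreyPackage) (L : Submodule (ZMod P.p) (V P))
    (hL : IsGaloisStable ℚ L) : (fixSub P L).Normal := by
  refine ⟨fun n hn g x hx => ?_⟩
  rw [mul_smul, mul_smul, hn _ (hL g⁻¹ x hx), smul_inv_smul]

/-- The subgroup acting trivially on the quotient by a stable submodule. -/
def cofixSub (P : FreyPackage) (L : Submodule (ZMod P.p) (V P))
    (hL : IsGaloisStable ℚ L) : Subgroup Gal where
  carrier := {σ | ∀ x : V P, σ • x - x ∈ L}
  one_mem' := fun x => by rw [one_smul, sub_self]; exact L.zero_mem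
  mul_mem' := fun {a b} ha hb x => by
    have h1 : (a * b) • x - x = a • (b • x - x) + (a • x - x) := by
      rw [mul_smul, smul_sub]; abel
    rw [h1]
    exact L.add_mem (hL a _ (hb x)) (ha x)
  inv_mem' := fun {a} ha x => by
    have h1 : a⁻¹ • x - x = -(a⁻¹ • (a • x - x)) := by
      rw [smul_sub, inv_smul_smul]; abel
    rw [h1]
    exact L.neg_mem (hL a⁻¹ _ (ha x))

theorem mem_cofixSub (P : FreyPackage) (L : Submodule (ZMod P.p) (V P))
    (hL : IsGaloisStable ℚ L) (σ : Gal) :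
    σ ∈ cofixSub P L hL ↔ ∀ x : V P, σ • x - x ∈ L := Iff.rfl

theorem cofixSub_normal (P : FreyPackage) (L : Submodule (ZMod P.p) (V P))
    (hL : IsGaloisStable ℚ L) : (cofixSub P L hL).Normal := by
  refine ⟨fun n hn g x => ?_⟩
  have h1 : (g * n * g⁻¹) • x - x = g • (n • (g⁻¹ • x) - g⁻¹ • x) := by
    rw [mul_smul, mul_smul, smul_sub, smul_inv_smul]
  rw [h1]
  exact hL g _ (hn _)

/-- The action on `E[p]` factors through a finite quotient. -/
theorem exists_open (P : FreyPackage) :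
    ∃ F : IntermediateField ℚ Qb, FiniteDimensional ℚ F ∧
      ∀ σ ∈ F.fixingSubgroup, ∀ x : V P, σ • x = x := by
  have : Fact P.p.Prime := ⟨P.pp⟩
  have h2 := finrank_torsion P
  have hfin : Module.Finite (ZMod P.p) (V P) :=
    Module.finite_of_finrank_pos (by rw [h2]; norm_num)
  have : NeZero P.p := ⟨P.hp0⟩
  have hVfin : Finite (V P) := Module.finite_of_finite (ZMod P.p)
  let cx : (P.freyCurve⁄Qb).Point → Qb := fun Q =>
    match Q with
    | .zero => 0
    | .some x _ _ => x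
  let cy : (P.freyCurve⁄Qb).Point → Qb := fun Q =>
    match Q with
    | .zero => 0
    | .some _ y _ => y
  let S : Set Qb := Set.range (fun v : V P => cx v.1) ∪ Set.range (fun v : V P => cy v.1)
  have hS : S.Finite := (Set.finite_range _).union (Set.finite_range _)
  refine ⟨IntermediateField.adjoin ℚ S, ?_, ?_⟩
  · have := hS.to_subtype
    exact IntermediateField.finiteDimensional_adjoin
      (fun x _ => Algebra.IsIntegral.isIntegral x)
  · intro σ hσ v
    have hfix : ∀ s ∈ S, σ s = s := fun s hs =>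
      (IntermediateField.mem_fixingSubgroup_iff _ σ).mp hσ s
        (IntermediateField.subset_adjoin ℚ S hs)
    apply Subtype.ext
    show σ • (v : (P.freyCurve⁄Qb).Point) = v
    have hx := hfix (cx v.1) (Or.inl ⟨v, rfl⟩)
    have hy := hfix (cy v.1) (Or.inr ⟨v, rfl⟩)
    generalize (v : (P.freyCurve⁄Qb).Point) = Q at hx hy
    cases Q with
    | zero => rfl
    | some x y h =>
      show Point.some (σ x) (σ y) _ = Point.some x y h
      have hx' : σ x = x := hx
      have hy' : σ y = y := hy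
      simp only [hx', hy']

/-- module identity used in `unip_cofix`. -/
theorem unip_aux {R M : Type*} [CommRing R] [AddCommGroup M] [Module R M] (c : R) (x l m : M)
    (h : m + c • (l + c • x) - (l + c • x) = (l + c • x) - x) :
    ((c - 1) * (c - 1)) • x = (2 : R) • l - m - c • l := by
  have e : ((c - 1) * (c - 1)) • x - ((2 : R) • l - m - c • l) =
      (m + c • (l + c • x) - (l + c • x)) - ((l + c • x) - x) := by module
  rw [h, sub_self] at e
  exact sub_eq_zero.mp e

/-- A unipotent operator fixes a stable line pointwise. -/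
theorem unip_fix (P : FreyPackage) (L : Submodule (ZMod P.p) (V P))
    (hL : IsGaloisStable ℚ L) (hL1 : finrank (ZMod P.p) L = 1) (σ : Gal)
    (hσ : ∀ x : V P, σ • (σ • x) - σ • x = σ • x - x) : ∀ x ∈ L, σ • x = x := by
  have : Fact P.p.Prime := ⟨P.pp⟩
  obtain ⟨v, hv0, hv⟩ := finrank_eq_one_iff'.mp hL1
  obtain ⟨c, hc⟩ := hv ⟨σ • (v : V P), hL σ v v.2⟩
  have hc' : σ • (v : V P) = c • (v : V P) := (congrArg Subtype.val hc).symm
  have h1 := hσ (v : V P)
  rw [hc', gal_smul_zmod_smul, hc'] at h1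
  have h2 : ((c - 1) * (c - 1)) • (v : V P) = 0 := by
    have e : ((c - 1) * (c - 1)) • (v : V P) =
        (c • c • (v : V P) - c • (v : V P)) - (c • (v : V P) - (v : V P)) := by module
    rw [e, h1, sub_self]
  have hv0' : (v : V P) ≠ 0 := fun h => hv0 (Subtype.ext h)
  have hc1 : c = 1 := by
    rcases smul_eq_zero.mp h2 with h | h
    · exact sub_eq_zero.mp (mul_self_eq_zero.mp h)
    · exact absurd h hv0'
  intro x hx
  obtain ⟨d, hd⟩ := hv ⟨x, hx⟩
  have hx' : x = d • (v : V P) := (congrArg Subtype.val hd).symm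
  rw [hx', gal_smul_zmod_smul, hc', hc1, one_smul]

/-- A unipotent operator acts trivially on the quotient by a stable line. -/
theorem unip_cofix (P : FreyPackage) (L : Submodule (ZMod P.p) (V P))
    (hL : IsGaloisStable ℚ L) (hL1 : finrank (ZMod P.p) L = 1)
    (hV : finrank (ZMod P.p) (V P) = 2) (σ : Gal)
    (hσ : ∀ x : V P, σ • (σ • x) - σ • x = σ • x - x) : ∀ x : V P, σ • x - x ∈ L := by
  have : Fact P.p.Prime := ⟨P.pp⟩
  have hfin : Module.Finite (ZMod P.p) (V P) :=
    Module.finite_of_finrank_pos (by rw [hV]; norm_num)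
  have hQ : finrank (ZMod P.p) (V P ⧸ L) = 1 := by
    have := Submodule.finrank_quotient_add_finrank L
    omega
  obtain ⟨q₀, hq0, hq⟩ := finrank_eq_one_iff'.mp hQ
  obtain ⟨x₀, rfl⟩ := Submodule.Quotient.mk_surjective L q₀
  have hx₀ : x₀ ∉ L := fun h => hq0 ((Submodule.Quotient.mk_eq_zero L).mpr h)
  have hdec : ∀ y : V P, ∃ c : ZMod P.p, y - c • x₀ ∈ L := by
    intro y
    obtain ⟨c, hc⟩ := hq (Submodule.Quotient.mk y)
    refine ⟨c, ?_⟩
    rw [← Submodule.Quotient.mk_eq_zero L, Submodule.Quotient.mk_sub,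
      Submodule.Quotient.mk_smul, hc, sub_self]
  obtain ⟨c₀, hc₀⟩ := hdec (σ • x₀)
  have e1 : σ • x₀ = (σ • x₀ - c₀ • x₀) + c₀ • x₀ := by abel
  have h1 := hσ x₀
  have e2 : σ • (σ • x₀) = σ • (σ • x₀ - c₀ • x₀) + c₀ • ((σ • x₀ - c₀ • x₀) + c₀ • x₀) := by
    rw [← e1, ← gal_smul_zmod_smul, ← smul_add, ← e1]
  have h3 : ((c₀ - 1) * (c₀ - 1)) • x₀ ∈ L := by
    have h1' : σ • (σ • x₀ - c₀ • x₀) + c₀ • ((σ • x₀ - c₀ • x₀) + c₀ • x₀) -
        ((σ • x₀ - c₀ • x₀) + c₀ • x₀) = ((σ • x₀ - c₀ • x₀) + c₀ • x₀) - x₀ := by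
      rw [← e2, ← e1]; exact h1
    rw [unip_aux c₀ x₀ (σ • x₀ - c₀ • x₀) (σ • (σ • x₀ - c₀ • x₀)) h1']
    exact L.sub_mem (L.sub_mem (L.smul_mem _ hc₀) (hL σ _ hc₀)) (L.smul_mem _ hc₀)
  have hc1 : c₀ = 1 := by
    by_contra hne
    have hne' : (c₀ - 1) * (c₀ - 1) ≠ 0 :=
      mul_ne_zero (sub_ne_zero.mpr hne) (sub_ne_zero.mpr hne)
    apply hx₀
    have := L.smul_mem ((c₀ - 1) * (c₀ - 1))⁻¹ h3
    rwa [smul_smul, inv_mul_cancel₀ hne', one_smul] at this
  have hx₀' : σ • x₀ - x₀ ∈ L := by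
    have h := hc₀
    rwa [hc1, one_smul] at h
  intro y
  obtain ⟨c, hc⟩ := hdec y
  have : σ • y - y = (σ • (y - c • x₀) - (y - c • x₀)) + c • (σ • x₀ - x₀) := by
    rw [smul_sub, gal_smul_zmod_smul, smul_sub]; abel
  rw [this]
  exact L.add_mem (L.sub_mem (hL σ _ hc) hc) (L.smul_mem _ hx₀')

/-- coercion of a `ZMod p`-multiple to the curve. -/
theorem coe_zmod_smul (P : FreyPackage) (c : ZMod P.p) (x : V P) :
    ((c • x : V P) : (P.freyCurve⁄Qb).Point) = c.val • (x : (P.freyCurve⁄Qb).Point) := by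
  have : NeZero P.p := ⟨P.hp0⟩
  have h : c • x = c.val • x := by
    conv_lhs => rw [← ZMod.natCast_zmod_val c]
    exact Nat.cast_smul_eq_nsmul (ZMod P.p) c.val x
  rw [h]
  rfl

/-- points of `E[p]` are killed by `p`. -/
theorem nsmul_coe_eq_zero (P : FreyPackage) (x : V P) :
    P.p • (x : (P.freyCurve⁄Qb).Point) = 0 := by
  have h := x.2
  rw [Submodule.mem_torsionBy_iff] at h
  rw [← h, natCast_zsmul]

/-- a line is generated by any of its nonzero elements. -/
theorem line_gen (P : FreyPackage) (L : Submodule (ZMod P.p) (V P))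
    (hL1 : finrank (ZMod P.p) L = 1) (t : V P) (ht : t ∈ L) (ht0 : t ≠ 0) :
    ∀ w ∈ L, ∃ c : ZMod P.p, w = c • t := by
  have : Fact P.p.Prime := ⟨P.pp⟩
  obtain ⟨v, hv0, hv⟩ := finrank_eq_one_iff'.mp hL1
  obtain ⟨a, ha⟩ := hv ⟨t, ht⟩
  have ha' : t = a • (v : V P) := (congrArg Subtype.val ha).symm
  have ha0 : a ≠ 0 := by
    rintro rfl
    exact ht0 (by rw [ha', zero_smul])
  intro w hw
  obtain ⟨d, hd⟩ := hv ⟨w, hw⟩
  have hd' : w = d • (v : V P) := (congrArg Subtype.val hd).symm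
  refine ⟨d * a⁻¹, ?_⟩
  rw [hd', ha', smul_smul, mul_assoc, inv_mul_cancel₀ ha0, mul_one]

/-- decomposition of `E[p]` along a line and a point outside it. -/
theorem exists_decomp (P : FreyPackage) (L : Submodule (ZMod P.p) (V P))
    (hL1 : finrank (ZMod P.p) L = 1) (hV : finrank (ZMod P.p) (V P) = 2) (s : V P)
    (hs : s ∉ L) : ∀ y : V P, ∃ c : ZMod P.p, y - c • s ∈ L := by
  have : Fact P.p.Prime := ⟨P.pp⟩
  have hfin : Module.Finite (ZMod P.p) (V P) :=
    Module.finite_of_finrank_pos (by rw [hV]; norm_num)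
  have hQ : finrank (ZMod P.p) (V P ⧸ L) = 1 := by
    have := Submodule.finrank_quotient_add_finrank L
    omega
  obtain ⟨q₀, hq0, hq⟩ := finrank_eq_one_iff'.mp hQ
  have hs' : (Submodule.Quotient.mk s : V P ⧸ L) ≠ 0 :=
    fun h => hs ((Submodule.Quotient.mk_eq_zero L).mp h)
  obtain ⟨a, ha⟩ := hq (Submodule.Quotient.mk s)
  have ha0 : a ≠ 0 := by
    rintro rfl
    exact hs' (by rw [← ha, zero_smul])
  intro y
  obtain ⟨d, hd⟩ := hq (Submodule.Quotient.mk y)
  refine ⟨d * a⁻¹, ?_⟩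
  rw [← Submodule.Quotient.mk_eq_zero L, Submodule.Quotient.mk_sub,
    Submodule.Quotient.mk_smul, ← ha, ← hd, smul_smul, mul_assoc, inv_mul_cancel₀ ha0, mul_one,
    sub_self]

/-- [Tp] local analysis at `p` (from helper65's landed `PFrey`): for one place `A` above `p`,
inertia acts trivially on a stable line or on the quotient by it. -/
theorem local_at_p (P : FreyPackage) :
    ∃ A : ValuationSubring Qb, A.LiesOverPrime P.p ∧
      ∀ L : Submodule (ZMod P.p) (V P), IsGaloisStable ℚ L → finrank (ZMod P.p) L = 1 →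
        (∀ σ ∈ A.inertiaSubgroupIn ℚ, ∀ x ∈ L, σ • x = x) ∨
        (∀ σ ∈ A.inertiaSubgroupIn ℚ, ∀ x : V P, σ • x - x ∈ L) := by
  have : Fact P.p.Prime := ⟨P.pp⟩
  obtain ⟨A, hA⟩ := Fermat.Agent.Lib.FrobExists.exists_liesOverPrime P.p P.pp
  refine ⟨A, hA, fun L hLs hL1 => ?_⟩
  have hV := finrank_torsion P
  have hmove : ∀ σ ∈ A.inertiaSubgroupIn ℚ, ∀ x : V P,
      ((σ • x - x : V P) : (P.freyCurve⁄Qb).Point) ∈ PFrey.E1 P A := fun σ hσ x =>
    PFrey.inertia_sub_mem_E1 P A hA σ hσ x (nsmul_coe_eq_zero P x)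
  by_cases hcap : ∀ x ∈ L, (x : (P.freyCurve⁄Qb).Point) ∈ PFrey.E1 P A → x = 0
  · left
    intro σ hσ x hx
    have h1 : σ • x - x ∈ L := L.sub_mem (hLs σ x hx) hx
    exact sub_eq_zero.mp (hcap _ h1 (hmove σ hσ x))
  · right
    push Not at hcap
    obtain ⟨t, htL, htE, ht0⟩ := hcap
    by_contra hcon
    push Not at hcon
    obtain ⟨σ, hσ, x, hx⟩ := hcon
    have ht0' : (t : (P.freyCurve⁄Qb).Point) ≠ 0 := fun h => ht0 (Subtype.ext h)
    have hstab : ∀ τ : Qb ≃ₐ[ℚ] Qb, ∃ k : ℕ,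
        τ • (t : (P.freyCurve⁄Qb).Point) = k • (t : (P.freyCurve⁄Qb).Point) := by
      intro τ
      obtain ⟨c, hc⟩ := line_gen P L hL1 t htL ht0 (τ • t) (hLs τ t htL)
      refine ⟨c.val, ?_⟩
      rw [← coe_zmod_smul, ← hc]
      rfl
    have hSk : ∀ k : ℕ, ((σ • x - x : V P) : (P.freyCurve⁄Qb).Point) ≠
        k • (t : (P.freyCurve⁄Qb).Point) := by
      intro k hk
      apply hx
      have : σ • x - x = k • t := Subtype.ext hk
      rw [this]
      exact L.nsmul_mem htL k
    obtain ⟨R, hR, hRE⟩ := PFrey.not_all_in_E1 P A hA t _ ht0' (nsmul_coe_eq_zero P t) hstab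
      (nsmul_coe_eq_zero P (σ • x - x)) hSk
    apply hRE
    -- every point of `E[p]` is a combination of `t` and `σ • x - x`, both in `E1`
    have hRmem : R ∈ Submodule.torsionBy ℤ (P.freyCurve⁄Qb).Point P.p := by
      rw [Submodule.mem_torsionBy_iff, natCast_zsmul]
      exact hR
    obtain ⟨c, hc⟩ := exists_decomp P L hL1 hV (σ • x - x) hx ⟨R, hRmem⟩
    obtain ⟨d, hd⟩ := line_gen P L hL1 t htL ht0 _ hc
    have hRe : (⟨R, hRmem⟩ : V P) = c • (σ • x - x) + d • t := by
      rw [← hd]; abel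
    have hR' : R = c.val • ((σ • x - x : V P) : (P.freyCurve⁄Qb).Point) +
        d.val • (t : (P.freyCurve⁄Qb).Point) := by
      have := congrArg Subtype.val hRe
      rw [Submodule.coe_add, coe_zmod_smul, coe_zmod_smul] at this
      exact this
    rw [hR']
    exact (PFrey.E1 P A).add_mem ((PFrey.E1 P A).nsmul_mem (hmove σ hσ x) _)
      ((PFrey.E1 P A).nsmul_mem htE _)

/-- **S13 from its packages** (hypothesis form: [T2] and [TM] are the three hypotheses). -/
theorem result_of_parts (P : FreyPackage)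
    (hT2a : ∀ A : ValuationSubring Qb, A.LiesOverPrime 2 → ∀ σ ∈ A.inertiaSubgroupIn ℚ,
      ∀ x : V P, σ • (σ • x - x) = σ • x - x)
    (hT2b : ∀ x : V P, (∀ σ : Gal, σ • x = x) → x = 0)
    (hTM : ∀ H : Subgroup Gal, H.Normal →
      (∃ F : IntermediateField ℚ Qb, FiniteDimensional ℚ F ∧ F.fixingSubgroup ≤ H) →
      (∀ q : ℕ, q.Prime →
        ∃ A : ValuationSubring Qb, A.LiesOverPrime q ∧ A.inertiaSubgroupIn ℚ ≤ H) → H = ⊤)
    (hred : ¬ GaloisRepIsIrreducible (K := AlgebraicClosure ℚ) ℚ P.freyCurve P.p) :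
    HasGaloisStableCofixedLine (K := AlgebraicClosure ℚ) ℚ P.freyCurve P.p := by
  have : Fact P.p.Prime := ⟨P.pp⟩
  have h2 := finrank_torsion P
  have hnt : Nontrivial (V P) :=
    Module.nontrivial_of_finrank_pos (R := ZMod P.p) (by rw [h2]; norm_num)
  have hfin : Module.Finite (ZMod P.p) (V P) :=
    Module.finite_of_finrank_pos (by rw [h2]; norm_num)
  -- a stable line
  obtain ⟨L, hLs, hLbot, hLtop⟩ : ∃ L : Submodule (ZMod P.p) (V P),
      IsGaloisStable ℚ L ∧ L ≠ ⊥ ∧ L ≠ ⊤ := by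
    by_contra hcon
    push Not at hcon
    refine hred ⟨hnt, fun N hN => ?_⟩
    by_contra h
    push Not at h
    exact h.2 (hcon N hN h.1)
  have hL1 : finrank (ZMod P.p) L = 1 := by
    have hpos : 1 ≤ finrank (ZMod P.p) L := Submodule.one_le_finrank_iff.mpr hLbot
    have hlt : finrank (ZMod P.p) L < finrank (ZMod P.p) (V P) :=
      Submodule.finrank_lt hLtop
    omega
  refine ⟨L, hLs, hLbot, hLtop, ?_⟩
  obtain ⟨Ap, hAp, hp⟩ := local_at_p P
  obtain ⟨A2, hA2⟩ := Fermat.Agent.Lib.FrobExists.exists_liesOverPrime 2 Nat.prime_two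
  obtain ⟨F, hF, hFfix⟩ := exists_open P
  have hunip : ∀ σ ∈ A2.inertiaSubgroupIn ℚ, ∀ x : V P,
      σ • (σ • x) - σ • x = σ • x - x := by
    intro σ hσ x
    rw [← smul_sub]
    exact hT2a A2 hA2 σ hσ x
  -- both characters are unramified outside `p`
  have hout : ∀ q : ℕ, q.Prime → q ≠ P.p →
      ∃ A : ValuationSubring Qb, A.LiesOverPrime q ∧
        A.inertiaSubgroupIn ℚ ≤ fixSub P L ∧ A.inertiaSubgroupIn ℚ ≤ cofixSub P L hLs := by
    intro q hq hqp
    by_cases hq2 : q = 2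
    · subst hq2
      refine ⟨A2, hA2, fun σ hσ => ?_, fun σ hσ => ?_⟩
      · exact unip_fix P L hLs hL1 σ (hunip σ hσ)
      · exact unip_cofix P L hLs hL1 h2 σ (hunip σ hσ)
    · obtain ⟨A, hA⟩ := Fermat.Agent.Lib.FrobExists.exists_liesOverPrime q hq
      have hun := Fermat.Agent.S05.result P hq hq2 hqp A hA
      refine ⟨A, hA, fun σ hσ x _ => hun σ hσ x, fun σ hσ x => ?_⟩
      show σ • x - x ∈ L
      have h0 : σ • x = x := hun σ hσ x
      rw [h0, sub_self]
      exact L.zero_mem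
  rcases hp L hLs hL1 with h | h
  · -- inertia at `p` is trivial on `L`: then `L` consists of rational points, impossible
    exfalso
    have htop : fixSub P L = ⊤ := by
      refine hTM _ (fixSub_normal P L hLs) ⟨F, hF, fun σ hσ x _ => hFfix σ hσ x⟩ ?_
      intro q hq
      by_cases hqp : q = P.p
      · subst hqp
        exact ⟨Ap, hAp, fun σ hσ => h σ hσ⟩
      · obtain ⟨A, hA, h1, -⟩ := hout q hq hqp
        exact ⟨A, hA, h1⟩
    obtain ⟨v, hv, hv0⟩ := (Submodule.ne_bot_iff L).mp hLbot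
    refine hv0 (hT2b v fun σ => ?_)
    have hσ : σ ∈ fixSub P L := by rw [htop]; exact Subgroup.mem_top σ
    exact hσ v hv
  · -- inertia at `p` is trivial on `V / L`: then the whole Galois group is
    have htop : cofixSub P L hLs = ⊤ := by
      refine hTM _ (cofixSub_normal P L hLs) ⟨F, hF, fun σ hσ x => ?_⟩ ?_
      · show σ • x - x ∈ L
        have h0 : σ • x = x := hFfix σ hσ x
        rw [h0, sub_self]
        exact L.zero_mem
      · intro q hq
        by_cases hqp : q = P.p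
        · subst hqp
          exact ⟨Ap, hAp, fun σ hσ => h σ hσ⟩
        · obtain ⟨A, hA, -, h2'⟩ := hout q hq hqp
          exact ⟨A, hA, h2'⟩
    intro σ x
    have hσ : σ ∈ cofixSub P L hLs := by rw [htop]; exact Subgroup.mem_top σ
    exact hσ x

end Fermat.Agent.S13
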