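/-
S13 from the two statements of package [T2] (local analysis at `2`) alone:
[T0] (helper62), [Tp] (helper65), [TM] (helper17), S05 and the global argument
(`S13/Assembly.lean`) are all landed.  helper50 (S13 lead).
-/
import Fermat.Agent.S13.Assembly
import Fermat.Agent.Lib.UnramTrivial

set_option autoImplicit false
open WeierstrassCurve WeierstrassCurve.Affine WeierstrassCurve.Affine.Point

namespace Fermat.Agent.S13

/-- **S13 from [T2].**  `hT2a`: inertia at `2` acts unipotently on `E[p]`;
`hT2b`: `E[p]` has no nonzero Galois-fixed point. -/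
theorem result_of_T2 (P : FreyPackage)
    (hT2a : ∀ A : ValuationSubring Qb, A.LiesOverPrime 2 → ∀ σ ∈ A.inertiaSubgroupIn ℚ,
      ∀ x : V P, σ • (σ • x - x) = σ • x - x)
    (hT2b : ∀ x : V P, (∀ σ : Gal, σ • x = x) → x = 0)
    (hred : ¬ GaloisRepIsIrreducible (K := AlgebraicClosure ℚ) ℚ P.freyCurve P.p) :
    HasGaloisStableCofixedLine (K := AlgebraicClosure ℚ) ℚ P.freyCurve P.p :=
  result_of_parts P hT2a hT2b
    (fun H hH hopen hunr => Fermat.Agent.Lib.UnramTrivial.minkowski H hH hopen hunr) hred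

/-- Point-level variant: the two [T2] statements for points of the curve killed by `p`
(the shapes `LocalTwo.inertia_unipotent`, `LocalTwo.no_rational_torsion`). -/
theorem result_of_T2_point (P : FreyPackage)
    (hT2a : ∀ A : ValuationSubring Qb, A.LiesOverPrime 2 → ∀ σ ∈ A.inertiaSubgroupIn ℚ,
      ∀ T : (P.freyCurve⁄Qb).Point, P.p • T = 0 → σ • (σ • T - T) = σ • T - T)
    (hT2b : ∀ T : (P.freyCurve⁄Qb).Point, P.p • T = 0 → (∀ σ : Gal, σ • T = T) → T = 0)
    (hred : ¬ GaloisRepIsIrreducible (K := AlgebraicClosure ℚ) ℚ P.freyCurve P.p) :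
    HasGaloisStableCofixedLine (K := AlgebraicClosure ℚ) ℚ P.freyCurve P.p := by
  refine result_of_T2 P (fun A hA σ hσ x => ?_) (fun x hx => ?_) hred
  · exact Subtype.ext (hT2a A hA σ hσ x (nsmul_coe_eq_zero P x))
  · refine Subtype.ext (hT2b x (nsmul_coe_eq_zero P x) fun σ => ?_)
    exact congrArg Subtype.val (hx σ)

end Fermat.Agent.S13
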