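/-
S13 from the single remaining statement [T2-ii] ("the Frey curve has no nonzero Galois-fixed
point of order `p`"): [T0] (helper62), [Tp] (helper65), [TM] (helper17), [T2-i] (helper30,
`TwoDirect.inertia_unipotent`), S05 and the global argument are all landed.  helper50 (S13 lead).
-/
import Fermat.Agent.S13.OfT2
import Fermat.Agent.S13.TwoDirect.FreyTwo

set_option autoImplicit false
open WeierstrassCurve WeierstrassCurve.Affine WeierstrassCurve.Affine.Point

namespace Fermat.Agent.S13

/-- **S13 from [T2-ii].** -/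
theorem result_of_no_rational_torsion (P : FreyPackage)
    (hT2b : ∀ T : (P.freyCurve⁄(AlgebraicClosure ℚ)).Point, P.p • T = 0 →
      (∀ σ : AlgebraicClosure ℚ ≃ₐ[ℚ] AlgebraicClosure ℚ, σ • T = T) → T = 0)
    (hred : ¬ GaloisRepIsIrreducible (K := AlgebraicClosure ℚ) ℚ P.freyCurve P.p) :
    HasGaloisStableCofixedLine (K := AlgebraicClosure ℚ) ℚ P.freyCurve P.p :=
  result_of_T2_point P
    (fun A hA σ hσ T hT => TwoDirect.inertia_unipotent P A hA σ hσ T hT) hT2b hred

end Fermat.Agent.S13
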