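import Mathlib
import Fermat.Prelude.Def_FLTPrelim_Ramification
import Fermat.Agent.Lib.FrobExists
import Fermat.Agent.S13.TwoDirect.FreyTwo
import Fermat.Agent.S13.TwoDirect.Rational

/-!
# S13, local analysis at `2` (direct method): the two statements used by the assembly

* `inertia_unipotent` (in `TwoDirect/FreyTwo.lean`): inertia at a place above `2` acts unipotently
  on the `p`-torsion of the Frey curve;
* `no_rational_torsion` (here): the Frey curve has no nonzero Galois-fixed point of order `p`.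
-/

set_option autoImplicit false

namespace Fermat.Agent.S13.TwoDirect

open Fermat.Agent.S05
open WeierstrassCurve WeierstrassCurve.Affine WeierstrassCurve.Affine.Point

/-- an element of `ℚ̄` fixed by the absolute Galois group is rational -/
lemma rat_of_fixed' (z : AlgebraicClosure ℚ)
    (hz : ∀ σ : AlgebraicClosure ℚ ≃ₐ[ℚ] AlgebraicClosure ℚ, σ z = z) :
    ∃ q : ℚ, algebraMap ℚ (AlgebraicClosure ℚ) q = z := by
  have : IsGalois ℚ (AlgebraicClosure ℚ) := by
    have h : (DivisionRing.toRatAlgebra : Algebra ℚ (AlgebraicClosure ℚ)) =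
        AlgebraicClosure.instAlgebra ℚ := Subsingleton.elim _ _
    rw [h]
    infer_instance
  exact (InfiniteGalois.mem_range_algebraMap_iff_fixed z).mpr hz

/-- a nonzero integer is a power of two times an odd integer -/
lemma int_two_decomp {n : ℤ} (hn : n ≠ 0) : ∃ (i : ℕ) (m : ℤ), ¬ (2 : ℤ) ∣ m ∧ n = 2 ^ i * m := by
  have hfin : FiniteMultiplicity (2 : ℤ) n := Int.finiteMultiplicity_iff.mpr ⟨by decide, hn⟩
  obtain ⟨c, hc, hc2⟩ := hfin.exists_eq_pow_mul_and_not_dvd
  exact ⟨_, c, hc2, hc⟩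

/-- a nonzero rational number is a power of two times a quotient of odd integers -/
lemma rat_two_decomp {r : ℚ} (hr : r ≠ 0) : ∃ (n : ℤ) (m d : ℤ), ¬ (2 : ℤ) ∣ m ∧ ¬ (2 : ℤ) ∣ d ∧
    algebraMap ℚ (AlgebraicClosure ℚ) r =
      (2 : AlgebraicClosure ℚ) ^ n * ((m : AlgebraicClosure ℚ) / (d : AlgebraicClosure ℚ)) := by
  have hnum : r.num ≠ 0 := Rat.num_ne_zero.mpr hr
  have hden : (r.den : ℤ) ≠ 0 := by exact_mod_cast r.den_ne_zero
  obtain ⟨i, m, hm, hi⟩ := int_two_decomp hnum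
  obtain ⟨j, d, hd, hj⟩ := int_two_decomp hden
  refine ⟨(i : ℤ) - j, m, d, hm, hd, ?_⟩
  have hd0 : (d : AlgebraicClosure ℚ) ≠ 0 := by
    intro h
    have : d = 0 := by exact_mod_cast h
    rw [this] at hd
    exact hd (dvd_zero _)
  have h2 : (2 : AlgebraicClosure ℚ) ≠ 0 := two_ne_zero
  have e1 : algebraMap ℚ (AlgebraicClosure ℚ) r =
      (r.num : AlgebraicClosure ℚ) / ((r.den : ℤ) : AlgebraicClosure ℚ) := by
    rw [eq_ratCast, Rat.cast_def]; push_cast; rfl
  rw [e1, hi, hj, zpow_sub₀ h2, zpow_natCast, zpow_natCast]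
  push_cast
  field_simp

section val
variable (A : ValuationSubring (AlgebraicClosure ℚ)) (hA : A.LiesOverPrime 2)
include hA

lemma val_two_lt : A.valuation (2 : AlgebraicClosure ℚ) < 1 := by
  have := (A.mem_nonunits_iff).mp hA
  simpa using this

lemma val_odd {m : ℤ} (hm : ¬ (2 : ℤ) ∣ m) : A.valuation (m : AlgebraicClosure ℚ) = 1 :=
  (val_intCast_eq_one_iff A Nat.prime_two hA m).mpr (by exact_mod_cast hm)

/-- the valuation of a nonzero rational number is a power of the valuation of `2` -/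
lemma val_rat_eq {r : ℚ} (hr : r ≠ 0) : ∃ n : ℤ,
    A.valuation (algebraMap ℚ (AlgebraicClosure ℚ) r) = A.valuation 2 ^ n := by
  obtain ⟨n, m, d, hm, hd, e⟩ := rat_two_decomp hr
  refine ⟨n, ?_⟩
  rw [e, map_mul, map_zpow₀, map_div₀, val_odd A hA hm, val_odd A hA hd, div_one, mul_one]

/-- a rational unit at `2` is congruent to `1` -/
lemma val_rat_sub_one {r : ℚ} (h1 : A.valuation (algebraMap ℚ (AlgebraicClosure ℚ) r) = 1) :
    A.valuation (algebraMap ℚ (AlgebraicClosure ℚ) r - 1) < 1 := by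
  have hr : r ≠ 0 := by
    rintro rfl
    simp at h1
  obtain ⟨n, m, d, hm, hd, e⟩ := rat_two_decomp hr
  have h2 := val_two_lt A hA
  have h20 : 0 < A.valuation (2 : AlgebraicClosure ℚ) :=
    zero_lt_iff.mpr ((map_ne_zero _).mpr two_ne_zero)
  have hn : n = 0 := by
    rw [e, map_mul, map_zpow₀, map_div₀, val_odd A hA hm, val_odd A hA hd, div_one, mul_one,
      ← zpow_zero (A.valuation (2 : AlgebraicClosure ℚ))] at h1
    exact zpow_right_injective₀ h20 h2.ne h1
  have hd0 : (d : AlgebraicClosure ℚ) ≠ 0 := by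
    intro h
    have : d = 0 := by exact_mod_cast h
    rw [this] at hd
    exact hd (dvd_zero _)
  have e2 : algebraMap ℚ (AlgebraicClosure ℚ) r - 1 =
      ((m - d : ℤ) : AlgebraicClosure ℚ) / (d : AlgebraicClosure ℚ) := by
    rw [e, hn, zpow_zero, one_mul]; push_cast; field_simp
  have hmd : (2 : ℤ) ∣ m - d := by
    have hm' : m % 2 = 1 := by omega
    have hd' : d % 2 = 1 := by omega
    omega
  rw [e2, map_div₀, val_odd A hA hd, div_one]
  exact (Glue.val_intCast_lt_one_iff A Nat.prime_two hA (m - d)).mpr (by exact_mod_cast hmd)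

end val

/-- **(T2-R)** the Frey curve has no nonzero Galois-fixed point of order `p`. -/
theorem no_rational_torsion (P : FreyPackage) (T : (P.freyCurve⁄(AlgebraicClosure ℚ)).Point)
    (hT : P.p • T = 0)
    (hfix : ∀ σ : AlgebraicClosure ℚ ≃ₐ[ℚ] AlgebraicClosure ℚ, σ • T = T) : T = 0 := by
  by_contra hT0
  obtain ⟨A, hA⟩ := Fermat.Agent.Lib.FrobExists.exists_liesOverPrime 2 Nat.prime_two
  have H := freyHyp P A hA
  have hp2 : P.p ≠ 2 := by have := P.hp5; omega
  -- the multiples of `T` have rational abscissa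
  have hrat : ∀ Q ∈ AddSubgroup.zmultiples T, Q ≠ 0 →
      ∃ r : ℚ, r ≠ 0 ∧ mX (freyD P) Q = algebraMap ℚ (AlgebraicClosure ℚ) r := by
    intro Q hQ hQ0
    obtain ⟨j, rfl⟩ := AddSubgroup.mem_zmultiples_iff.mp hQ
    have hfixQ : ∀ σ : AlgebraicClosure ℚ ≃ₐ[ℚ] AlgebraicClosure ℚ, σ • (j • T) = j • T := by
      intro σ
      have := map_zsmul (FreyKummer.galAddHom σ) j T
      rw [FreyKummer.galAddHom_apply, FreyKummer.galAddHom_apply, hfix σ] at this
      exact this
    have hx : ∀ σ : AlgebraicClosure ℚ ≃ₐ[ℚ] AlgebraicClosure ℚ,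
        σ ((freyD P).x (j • T)) = (freyD P).x (j • T) := by
      intro σ
      have := FreyInst.kummer_x_smul P two_ne_zero 0 (by ring) σ (j • T)
      rw [hfixQ σ] at this
      exact this.symm
    obtain ⟨r, hr⟩ := rat_of_fixed' _ hx
    have hX : mX (freyD P) (j • T) = algebraMap ℚ (AlgebraicClosure ℚ) (r / 4) := by
      unfold mX
      rw [← hr, map_div₀, map_ofNat]
    refine ⟨r / 4, ?_, hX⟩
    intro h0
    rw [h0, _root_.map_zero] at hX
    exact mX_ne_of_tors H P.pp hp2 (zm_tors hT hQ) hQ0 hX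
  obtain ⟨s, n, hs1, hn, h4⟩ := exists_a4 P
  have hps : 5 * 1 ≤ P.p * s := Nat.mul_le_mul P.hp5 hs1
  refine no_rational H P.pp P.hp5 hT hT0 ?_ ?_ ((P.p * s - 4 : ℕ) : ℤ) ?_ ?_
  · intro Q hQ hQ0 h1
    obtain ⟨r, -, hr⟩ := hrat Q hQ hQ0
    rw [hr] at h1 ⊢
    exact val_rat_sub_one A hA h1
  · intro Q hQ hQ0
    obtain ⟨r, hr0, hr⟩ := hrat Q hQ hQ0
    rw [hr]
    exact val_rat_eq A hA hr0
  · rw [h4, map_mul, map_pow, val_odd A hA hn, mul_one, zpow_natCast]
  · intro hdvd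
    have hcast : ((P.p * s - 4 : ℕ) : ℤ) = (P.p : ℤ) * s - 4 := by
      rw [Nat.cast_sub (by omega)]; push_cast; ring
    rw [hcast] at hdvd
    have h8 : (P.p : ℤ) ∣ 8 := by
      have h1 : (P.p : ℤ) ∣ 2 * ((P.p : ℤ) * s) := ⟨2 * s, by ring⟩
      have h2 : (8 : ℤ) = 2 * ((P.p : ℤ) * s) - 2 * ((P.p : ℤ) * s - 4) := by ring
      rw [h2]; exact dvd_sub h1 hdvd
    have h8' : P.p ∣ 8 := by exact_mod_cast h8
    have h2' : P.p ∣ 2 := by
      have : (8 : ℕ) = 2 ^ 3 := by norm_num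
      rw [this] at h8'
      exact P.pp.dvd_of_dvd_pow h8'
    have := Nat.le_of_dvd (by norm_num) h2'
    have := P.hp5
    omega

end Fermat.Agent.S13.TwoDirect
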