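/-
S13, input of package [Tp]: the hypothesis `LocalP.DP P` (an integer polynomial with leading
coefficient `± p` vanishing at the abscissas of the nonzero `p`-torsion points of the Frey curve)
is a theorem.  Source: the integral `x`-only recursion of `Lib/TorsionPoly`.
Owner: helper62.
-/
import Mathlib
import Fermat.Agent.Lib.TorsionPoly
import Fermat.Agent.Lib.LevelZero
import Fermat.Agent.S13.LocalP

set_option autoImplicit false

namespace Fermat.Agent.S13.DPFrey

open WeierstrassCurve WeierstrassCurve.Affine Polynomial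

local notation "Qb" => AlgebraicClosure ℚ

theorem frey_map_eq (P : FreyPackage) :
    (P.freyCurve⁄Qb) = P.freyCurveInt.map (Int.castRingHom Qb) := by
  have h1 : (P.freyCurve⁄Qb) = P.freyCurve.map (algebraMap ℚ Qb) := rfl
  rw [h1, ← Fermat.Agent.Lib.LevelZero.freyCurveInt_map P, WeierstrassCurve.map_map]
  congr 1

theorem frey_disc_ne_zero (P : FreyPackage) : (P.freyCurve⁄Qb).Δ ≠ 0 := by
  have h1 : (P.freyCurve⁄Qb).Δ = algebraMap ℚ Qb P.freyCurve.Δ := WeierstrassCurve.map_Δ _ _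
  have hF : (P.c : ℚ) ^ P.p = (P.a : ℚ) ^ P.p + (P.b : ℚ) ^ P.p := by
    exact_mod_cast P.hFLT.symm
  have h2 : P.freyCurve.Δ = ((P.a : ℚ) ^ P.p * (P.b : ℚ) ^ P.p * (P.c : ℚ) ^ P.p) ^ 2 / 256 := by
    rw [hF]
    simp only [WeierstrassCurve.Δ, WeierstrassCurve.b₂, WeierstrassCurve.b₄, WeierstrassCurve.b₆,
      WeierstrassCurve.b₈, FreyPackage.freyCurve]
    ring
  rw [h1, h2]
  apply (_root_.map_ne_zero _).mpr
  have ha : (P.a : ℚ) ≠ 0 := by exact_mod_cast P.ha0
  have hb : (P.b : ℚ) ≠ 0 := by exact_mod_cast P.hb0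
  have hc : (P.c : ℚ) ≠ 0 := by exact_mod_cast P.hc0
  positivity

/-- **The division-polynomial input of `LocalP.inertia_dichotomy` holds.** -/
theorem dp (P : FreyPackage) : Fermat.Agent.S13.LocalP.DP P := by
  obtain ⟨m, hm⟩ := P.hp_odd
  have hmap := frey_map_eq P
  have h₂ : (P.freyCurve⁄Qb).b₂ ∈ (Int.castRingHom Qb).range := by
    rw [hmap, WeierstrassCurve.map_b₂]; exact ⟨_, rfl⟩
  have h₄ : (P.freyCurve⁄Qb).b₄ ∈ (Int.castRingHom Qb).range := by
    rw [hmap, WeierstrassCurve.map_b₄]; exact ⟨_, rfl⟩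
  have h₆ : (P.freyCurve⁄Qb).b₆ ∈ (Int.castRingHom Qb).range := by
    rw [hmap, WeierstrassCurve.map_b₆]; exact ⟨_, rfl⟩
  have h₈ : (P.freyCurve⁄Qb).b₈ ∈ (Int.castRingHom Qb).range := by
    rw [hmap, WeierstrassCurve.map_b₈]; exact ⟨_, rfl⟩
  obtain ⟨ψ, hdeg, hcoeff, hroot⟩ := Fermat.Agent.Lib.TorsionPoly.exists_torsion_poly
    (Int.castRingHom Qb) (RingHom.injective_int _) (P.freyCurve⁄Qb) (frey_disc_ne_zero P)
    h₂ h₄ h₆ h₈ m
  have hpne : (P.p : ℤ) ≠ 0 := by exact_mod_cast P.hp0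
  have hc' : ψ.coeff (2 * m * (m + 1)) = -(P.p : ℤ) := by
    rw [hcoeff, hm]
  have hnat : ψ.natDegree = 2 * m * (m + 1) := by
    refine le_antisymm hdeg (le_natDegree_of_ne_zero ?_)
    rw [hc']
    exact neg_ne_zero.mpr hpne
  refine ⟨ψ, Or.inr ?_, ?_⟩
  · rw [Polynomial.leadingCoeff, hnat, hc']
  · intro T hT hpT
    rcases T with _ | ⟨x, y, h⟩
    · exact absurd rfl hT
    · have := hroot x y h (by rw [← hm]; exact hpT)
      show Polynomial.aeval x ψ = 0
      rw [Polynomial.aeval_def, Polynomial.eval₂_eq_eval_map]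
      have e : algebraMap ℤ Qb = Int.castRingHom Qb := RingHom.ext_int _ _
      rw [e]
      exact this

end Fermat.Agent.S13.DPFrey
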