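import Mathlib
import Fermat.Prelude.Def_FLTPrelim_GaloisRep
import Fermat.Agent.Lib.LevelZero
import Fermat.Agent.Lib.XLadder

/-!
# S13 / FreyDP: the integral `p`-division polynomial of the Frey curve

For a Frey package `P` we exhibit `freyDivPoly P ∈ ℤ[X]`, nonzero, of degree `(p² - 1)/2`
and leading coefficient `-p`, vanishing at the abscissa of every nonzero `p`-torsion point
of the Frey curve over any field of characteristic zero (in particular over
`AlgebraicClosure ℚ`).  This is the only input from the torsion package that the local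
analysis at `p` needs.
-/

set_option autoImplicit false

open WeierstrassCurve WeierstrassCurve.Affine

namespace Fermat.Agent.S13.FreyDP

open Fermat.Agent.Lib.XLadder

/-- The discriminant of the Frey curve: `Δ = (a^p b^p c^p)² / 2⁸`. -/
theorem freyCurve_Δ (P : FreyPackage) :
    P.freyCurve.Δ = ((P.a : ℚ) ^ P.p * (P.b : ℚ) ^ P.p * (P.c : ℚ) ^ P.p) ^ 2 / 2 ^ 8 := by
  have h : (P.a : ℚ) ^ P.p + (P.b : ℚ) ^ P.p = (P.c : ℚ) ^ P.p := by exact_mod_cast P.hFLT
  simp only [FreyPackage.freyCurve, WeierstrassCurve.Δ, WeierstrassCurve.b₂, WeierstrassCurve.b₄,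
    WeierstrassCurve.b₆, WeierstrassCurve.b₈]
  rw [← h]
  ring

theorem freyCurve_Δ_ne_zero (P : FreyPackage) : P.freyCurve.Δ ≠ 0 := by
  rw [freyCurve_Δ]
  have ha : (P.a : ℚ) ≠ 0 := by exact_mod_cast P.ha0
  have hb : (P.b : ℚ) ≠ 0 := by exact_mod_cast P.hb0
  have hc : (P.c : ℚ) ≠ 0 := by exact_mod_cast P.hc0
  positivity

variable {K : Type*} [Field K] [Algebra ℚ K]

/-- The integral model base-changes to the Frey curve over any `ℚ`-algebra field. -/
theorem freyCurveInt_map_field (P : FreyPackage) :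
    P.freyCurveInt.map (Int.castRingHom K) = (P.freyCurve⁄K) := by
  have h := Fermat.Agent.Lib.LevelZero.freyCurveInt_map P
  change _ = P.freyCurve.map (algebraMap ℚ K)
  rw [← h, WeierstrassCurve.map_map]
  congr 1
  exact RingHom.ext_int _ _

theorem freyCurve_baseChange_Δ_ne_zero (P : FreyPackage) : (P.freyCurve⁄K).Δ ≠ 0 := by
  change (P.freyCurve.map (algebraMap ℚ K)).Δ ≠ 0
  rw [WeierstrassCurve.map_Δ]
  exact (map_ne_zero (algebraMap ℚ K)).mpr (freyCurve_Δ_ne_zero P)

/-- The integral `p`-division polynomial of the Frey curve (from the x-only ladder). -/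
noncomputable def freyDivPoly (P : FreyPackage) : Polynomial ℤ :=
  intDivPoly P.freyCurveInt (P.p / 2)

theorem freyDivPoly_ne_zero (P : FreyPackage) : freyDivPoly P ≠ 0 :=
  intDivPoly_ne_zero _ _

theorem leadingCoeff_freyDivPoly (P : FreyPackage) :
    (freyDivPoly P).leadingCoeff = -(P.p : ℤ) :=
  leadingCoeff_intDivPoly_odd _ P.hp_odd

theorem natDegree_freyDivPoly (P : FreyPackage) :
    (freyDivPoly P).natDegree = (P.p ^ 2 - 1) / 2 :=
  natDegree_intDivPoly_odd _ P.hp_odd

/-- **Frey DP**: the abscissa of every affine `p`-torsion point of the Frey curve is a root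
of the integral polynomial `freyDivPoly P` (leading coefficient `-p`). -/
theorem aeval_freyDivPoly [DecidableEq K] (P : FreyPackage) {x y : K}
    (h : (P.freyCurve⁄K).Nonsingular x y)
    (hT : P.p • (Point.some x y h : (P.freyCurve⁄K).Point) = 0) :
    Polynomial.aeval x (freyDivPoly P) = 0 :=
  aeval_intDivPoly_odd P.freyCurveInt (P.freyCurve⁄K) (freyCurveInt_map_field P)
    (freyCurve_baseChange_Δ_ne_zero P) P.hp_odd h hT

/-- Existential packaging (any field `K` of characteristic zero, e.g. `AlgebraicClosure ℚ`). -/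
theorem exists_int_divPoly [DecidableEq K] (P : FreyPackage) :
    ∃ ψ : Polynomial ℤ, ψ ≠ 0 ∧ ψ.natDegree = (P.p ^ 2 - 1) / 2 ∧
      ψ.leadingCoeff = -(P.p : ℤ) ∧
      ∀ (x y : K) (h : (P.freyCurve⁄K).Nonsingular x y),
        P.p • (Point.some x y h : (P.freyCurve⁄K).Point) = 0 → Polynomial.aeval x ψ = 0 :=
  ⟨freyDivPoly P, freyDivPoly_ne_zero P, natDegree_freyDivPoly P, leadingCoeff_freyDivPoly P,
    fun _ _ h hT => aeval_freyDivPoly P h hT⟩

end Fermat.Agent.S13.FreyDP
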