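import Mathlib
import Fermat.Agent.S13.FreyDP
import Fermat.Agent.S13.LocalP

/-!
# S13 / FreyDPLocal: the division-polynomial input `LocalP.DP P` of the local analysis at `p`

`Fermat.Agent.S13.LocalP.DP P` holds for every Frey package, with the integral polynomial
`FreyDP.freyDivPoly P` (leading coefficient `-p`) produced by the x-only ladder.
-/

set_option autoImplicit false

open WeierstrassCurve WeierstrassCurve.Affine

namespace Fermat.Agent.S13.FreyDP

/-- The hypothesis `DP P` of `Fermat.Agent.S13.LocalP.inertia_dichotomy` holds. -/
theorem dp (P : FreyPackage) : Fermat.Agent.S13.LocalP.DP P := by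
  refine ⟨freyDivPoly P, Or.inr (leadingCoeff_freyDivPoly P), ?_⟩
  intro T hT0 hT
  cases T with
  | zero => exact absurd rfl hT0
  | some x y h => exact aeval_freyDivPoly P h hT

end Fermat.Agent.S13.FreyDP
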