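/-
S13, package [Tp], final form: LOCAL ANALYSIS AT `p` for the Frey curve, hypothesis-free.

For a place `A` of `ℚ̄` above `p` and a Galois-stable line `L` of `E[p]`, the inertia group
`I_A` acts trivially on `L` or trivially on `E[p] / L`.

Assembly of
* `PFrey.inertia_sub_mem_E1` (inertia moves `p`-torsion points by elements of the kernel of
  reduction `E₁`),
* `PFrey.not_all_in_E1` (`E[p]` is not contained in `E₁` when it has a stable line),
* `Lib.TorsionCard.card_torsionBy_baseChange` (`|E[p]| = p ^ 2`).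
-/
import Mathlib
import Fermat.Prelude.Def_FLTPrelim_Ramification
import Fermat.Agent.S13.PFrey
import Fermat.Agent.Lib.TorsionCard
import Fermat.Agent.Lib.FrobExists

set_option autoImplicit false

namespace Fermat.Agent.S13.LocalAtP

open WeierstrassCurve WeierstrassCurve.Affine WeierstrassCurve.Affine.Point
open Fermat.Agent.S05 Fermat.Agent.S13

local notation "Qb" => AlgebraicClosure ℚ

/-- In a group of prime order `p`, every element is a natural multiple of a fixed nonzero
element. -/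
theorem exists_nsmul_eq_of_card_prime {G : Type*} [AddCommGroup G] {p : ℕ} (hp : p.Prime)
    (hcard : Nat.card G = p) (t : G) (ht : t ≠ 0) (z : G) : ∃ k : ℕ, z = k • t := by
  have hfin : Finite G := Nat.finite_of_card_ne_zero (by rw [hcard]; exact hp.ne_zero)
  have hord : addOrderOf t = p := by
    have h1 : addOrderOf t ∣ Nat.card G := addOrderOf_dvd_natCard t
    rw [hcard] at h1
    rcases (Nat.dvd_prime hp).mp h1 with h | h
    · exact absurd (AddMonoid.addOrderOf_eq_one_iff.mp h) ht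
    · exact h
  have htop : AddSubgroup.zmultiples t = ⊤ := by
    apply (AddSubgroup.card_eq_iff_eq_top _).mp
    rw [Nat.card_zmultiples, hord, hcard]
  have hz : z ∈ AddSubgroup.zmultiples t := htop ▸ AddSubgroup.mem_top z
  rw [← mem_multiples_iff_mem_zmultiples] at hz
  obtain ⟨k, hk⟩ := (AddSubmonoid.mem_multiples_iff _ _).mp hz
  exact ⟨k, hk.symm⟩

/-- **[Tp], for every place above `p`.** -/
theorem local_at_p_of (P : FreyPackage) (A : ValuationSubring Qb) (hA : A.LiesOverPrime P.p)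
    (L : Submodule (ZMod P.p) (Submodule.torsionBy ℤ (P.freyCurve⁄Qb).Point P.p))
    (hL : IsGaloisStable ℚ L) (hcard : Nat.card L = P.p) :
    (∀ σ ∈ A.inertiaSubgroupIn ℚ, ∀ x ∈ L, σ • x = x) ∨
      (∀ σ ∈ A.inertiaSubgroupIn ℚ,
        ∀ x : Submodule.torsionBy ℤ (P.freyCurve⁄Qb).Point P.p, σ • x - x ∈ L) := by
  classical
  -- torsion
  have htors : ∀ x : Submodule.torsionBy ℤ (P.freyCurve⁄Qb).Point P.p,
      P.p • (x : (P.freyCurve⁄Qb).Point) = 0 := by
    intro x
    have hx : (P.p : ℤ) • x.1 = 0 := (Submodule.mem_torsionBy_iff _ _).mp x.2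
    rwa [natCast_zsmul] at hx
  -- `σ x - x` lies in `E₁`
  have hdiff : ∀ σ ∈ A.inertiaSubgroupIn ℚ,
      ∀ x : Submodule.torsionBy ℤ (P.freyCurve⁄Qb).Point P.p,
        ((σ • x - x : Submodule.torsionBy ℤ (P.freyCurve⁄Qb).Point P.p) :
          (P.freyCurve⁄Qb).Point) ∈ PFrey.E1 P A := by
    intro σ hσ x
    exact PFrey.inertia_sub_mem_E1 P A hA σ hσ (x : (P.freyCurve⁄Qb).Point) (htors x)
  -- the subgroup of `E[p]` of points in the kernel of reduction
  let M : AddSubgroup (Submodule.torsionBy ℤ (P.freyCurve⁄Qb).Point P.p) :=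
    { carrier := {x | (x : (P.freyCurve⁄Qb).Point) ∈ PFrey.E1 P A}
      zero_mem' := (PFrey.E1 P A).zero_mem
      add_mem' := fun {a b} ha hb => (PFrey.E1 P A).add_mem ha hb
      neg_mem' := fun {a} ha => (PFrey.E1 P A).neg_mem ha }
  have hM : ∀ x : Submodule.torsionBy ℤ (P.freyCurve⁄Qb).Point P.p,
      x ∈ M ↔ (x : (P.freyCurve⁄Qb).Point) ∈ PFrey.E1 P A := fun x => Iff.rfl
  -- the subgroup of `L` of points in the kernel of reduction
  let S₀ : AddSubgroup L :=
    { carrier := {x | ((x : L) : Submodule.torsionBy ℤ (P.freyCurve⁄Qb).Point P.p) ∈ M}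
      zero_mem' := M.zero_mem
      add_mem' := fun {a b} ha hb => M.add_mem ha hb
      neg_mem' := fun {a} ha => M.neg_mem ha }
  have hfin : Finite L := Nat.finite_of_card_ne_zero (by rw [hcard]; exact P.hp0)
  have hdvd : Nat.card S₀ ∣ P.p := by
    have := S₀.card_addSubgroup_dvd_card
    rwa [hcard] at this
  rcases (Nat.dvd_prime P.pp).mp hdvd with h1 | hp
  · -- `L ∩ E₁ = 0`: inertia acts trivially on `L`
    left
    have hbot : S₀ = ⊥ := AddSubgroup.eq_bot_of_card_eq S₀ h1
    intro σ hσ x hx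
    have hy : σ • x - x ∈ L := L.sub_mem (hL σ x hx) hx
    have hyE : (⟨σ • x - x, hy⟩ : L) ∈ S₀ := hdiff σ hσ x
    rw [hbot, AddSubgroup.mem_bot] at hyE
    have h0 : σ • x - x = 0 := congrArg Subtype.val hyE
    exact sub_eq_zero.mp h0
  · -- `L ⊆ E₁`: then `E₁ ∩ E[p] = L`, and inertia acts trivially on `E[p] / L`
    right
    have htop : S₀ = ⊤ := (AddSubgroup.card_eq_iff_eq_top S₀).mp (hp.trans hcard.symm)
    have hall : ∀ x : Submodule.torsionBy ℤ (P.freyCurve⁄Qb).Point P.p, x ∈ L → x ∈ M := by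
      intro x hx
      have : (⟨x, hx⟩ : L) ∈ S₀ := htop ▸ AddSubgroup.mem_top _
      exact this
    suffices hmem : ∀ y : Submodule.torsionBy ℤ (P.freyCurve⁄Qb).Point P.p, y ∈ M → y ∈ L from
      fun σ hσ x => hmem _ (hdiff σ hσ x)
    intro y hyM
    by_contra hyL
    -- a generator of `L`
    have h1 : 1 < Nat.card L := by rw [hcard]; have := P.hp5; omega
    have hnt : Nontrivial L := Finite.one_lt_card_iff_nontrivial.mp h1
    obtain ⟨t, ht⟩ := exists_ne (0 : L)
    have hgen : ∀ z : Submodule.torsionBy ℤ (P.freyCurve⁄Qb).Point P.p, z ∈ L →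
        ∃ k : ℕ, z = k • (t : Submodule.torsionBy ℤ (P.freyCurve⁄Qb).Point P.p) := by
      intro z hz
      obtain ⟨k, hk⟩ := exists_nsmul_eq_of_card_prime P.pp hcard t ht ⟨z, hz⟩
      exact ⟨k, congrArg Subtype.val hk⟩
    have ht0 : ((t : Submodule.torsionBy ℤ (P.freyCurve⁄Qb).Point P.p) :
        (P.freyCurve⁄Qb).Point) ≠ 0 := by
      intro h
      exact ht (Subtype.ext (Subtype.ext h))
    -- `E[p]` is not contained in `E₁`
    obtain ⟨R, hR, hRE⟩ := PFrey.not_all_in_E1 P A hA
      ((t : Submodule.torsionBy ℤ (P.freyCurve⁄Qb).Point P.p) : (P.freyCurve⁄Qb).Point)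
      (y : (P.freyCurve⁄Qb).Point) ht0 (htors _)
      (by
        intro σ
        obtain ⟨k, hk⟩ := hgen (σ • (t : Submodule.torsionBy ℤ (P.freyCurve⁄Qb).Point P.p))
          (hL σ _ t.2)
        exact ⟨k, congrArg Subtype.val hk⟩)
      (htors y)
      (by
        intro k hk
        apply hyL
        have : y = k • (t : Submodule.torsionBy ℤ (P.freyCurve⁄Qb).Point P.p) :=
          Subtype.ext hk
        rw [this]
        exact L.toAddSubgroup.nsmul_mem t.2 k)
    -- but `M` contains `L` strictly, so `M = E[p]`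
    have hΔ : algebraMap ℚ Qb P.freyCurve.Δ ≠ 0 := by
      have := PFrey.disc_ne_zero P
      intro h
      apply this
      show (WeierstrassCurve.map P.freyCurve (algebraMap ℚ Qb)).Δ = 0
      rw [WeierstrassCurve.map_Δ]; exact h
    have hV : Nat.card (Submodule.torsionBy ℤ (P.freyCurve⁄Qb).Point P.p) = P.p ^ 2 :=
      Lib.TorsionCard.card_torsionBy_baseChange P.freyCurve hΔ P.p P.pp.pos
    have hVfin : Finite (Submodule.torsionBy ℤ (P.freyCurve⁄Qb).Point P.p) :=
      Nat.finite_of_card_ne_zero (by rw [hV]; exact pow_ne_zero _ P.hp0)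
    have hLM : L.toAddSubgroup ≤ M := fun x hx => hall x hx
    have hMdvd : Nat.card M ∣ P.p ^ 2 := by
      have := M.card_addSubgroup_dvd_card
      rwa [hV] at this
    have hcardL' : Nat.card L.toAddSubgroup = P.p := hcard
    have hMtop : M = ⊤ := by
      apply (AddSubgroup.card_eq_iff_eq_top M).mp
      rw [hV]
      obtain ⟨i, hi, hMi⟩ := (Nat.dvd_prime_pow P.pp).mp hMdvd
      rw [hMi]
      by_contra hne
      have hi1 : i ≤ 1 := by
        rcases Nat.lt_or_ge i 2 with h | h
        · omega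
        · exact absurd (by rw [le_antisymm hi h]) hne
      have hle : Nat.card M ≤ Nat.card L.toAddSubgroup := by
        rw [hMi, hcardL']
        calc P.p ^ i ≤ P.p ^ 1 := Nat.pow_le_pow_right P.pp.pos hi1
          _ = P.p := pow_one _
      have hEq : L.toAddSubgroup = M := AddSubgroup.eq_of_le_of_card_ge hLM hle
      have hyL' : y ∈ L.toAddSubgroup := hEq ▸ hyM
      exact hyL hyL'
    have hRV : R ∈ Submodule.torsionBy ℤ (P.freyCurve⁄Qb).Point P.p := by
      rw [Submodule.mem_torsionBy_iff, natCast_zsmul]; exact hR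
    have : (⟨R, hRV⟩ : Submodule.torsionBy ℤ (P.freyCurve⁄Qb).Point P.p) ∈ M :=
      hMtop ▸ AddSubgroup.mem_top _
    exact hRE this

/-- **[Tp]** local analysis at `p`, in the form used by the S13 assembly. -/
theorem local_at_p (P : FreyPackage) :
    ∃ A : ValuationSubring Qb, A.LiesOverPrime P.p ∧
      ∀ L : Submodule (ZMod P.p) (Submodule.torsionBy ℤ (P.freyCurve⁄Qb).Point P.p),
        IsGaloisStable ℚ L → Module.finrank (ZMod P.p) L = 1 →
        (∀ σ ∈ A.inertiaSubgroupIn ℚ, ∀ x ∈ L, σ • x = x) ∨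
        (∀ σ ∈ A.inertiaSubgroupIn ℚ,
          ∀ x : Submodule.torsionBy ℤ (P.freyCurve⁄Qb).Point P.p, σ • x - x ∈ L) := by
  obtain ⟨A, hA⟩ := Lib.FrobExists.exists_liesOverPrime P.p P.pp
  refine ⟨A, hA, fun L hL hrank => local_at_p_of P A hA L hL ?_⟩
  have : Fact P.p.Prime := ⟨P.pp⟩
  have : Module.Finite (ZMod P.p) L := Module.finite_of_finrank_pos (by rw [hrank]; exact one_pos)
  rw [Module.natCard_eq_pow_finrank (K := ZMod P.p), hrank, pow_one, Nat.card_zmod]

end Fermat.Agent.S13.LocalAtP
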