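import Mathlib
import Fermat.Agent.S13.PFrey
import Fermat.Agent.Lib.FrobExists

/-!
# S13 `[Tp]`: the statement `local_at_p` in the shape of helper50's `S13/Plan.lean`
(hypothesis-free).
-/

set_option autoImplicit false

namespace Fermat.Agent.S13

open WeierstrassCurve WeierstrassCurve.Affine WeierstrassCurve.Affine.Point

/-- **`[Tp]`** local analysis at `p`: there is a place `A` above `p` such that for every
Galois-stable line `L` of `E[p]`, the inertia group at `A` acts trivially on `L` or on
`E[p] / L`. -/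
theorem PFrey.local_at_p (P : FreyPackage) :
    ∃ A : ValuationSubring (AlgebraicClosure ℚ), A.LiesOverPrime P.p ∧
      ∀ L : Submodule (ZMod P.p)
          (Submodule.torsionBy ℤ (P.freyCurve⁄(AlgebraicClosure ℚ)).Point P.p),
        IsGaloisStable ℚ L → Module.finrank (ZMod P.p) L = 1 →
        (∀ σ ∈ A.inertiaSubgroupIn ℚ, ∀ x ∈ L, σ • x = x) ∨
        (∀ σ ∈ A.inertiaSubgroupIn ℚ,
          ∀ x : Submodule.torsionBy ℤ (P.freyCurve⁄(AlgebraicClosure ℚ)).Point P.p,
            σ • x - x ∈ L) := by
  obtain ⟨A, hA⟩ := Fermat.Agent.Lib.FrobExists.exists_liesOverPrime P.p P.pp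
  exact ⟨A, hA, fun L hL hL1 => PFrey.local_at_p_of P A hA L hL hL1⟩

end Fermat.Agent.S13
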